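import Fermat.Agent.EC.HW.Calib
import Fermat.Agent.EC.Tor.Main

/-!
# Program E (S58), block HW, node HW8: the export (★) from the outputs of HW1–HW7 (glue skeleton)

`F` a finite field with `q` elements, `k` an algebraically closed extension of characteristic `l`,
`W` a Weierstrass curve over `F` with `Δ ≠ 0`, `π = frobPt F k W` the `q`-Frobenius on `E(k)`.

INPUTS (hypotheses, each the literal output of an HW node):

* `hd` (HW1 + HW-b `closed_form_of_rec`): the heights `d n` of `x ((π - n) P_gen)` satisfy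
  `d n = n² - a' n + q` for all `n : ℤ`;
* `hfib` (HW6 `card_ker_mul_pow_eq`): for `d n ≥ 1`, `# ker (π - n) * l ^ m = d n` for some `m`;
* `hdeg` (HW6, degenerate case): if `d n = 0` then `π = n` on all of `E(k)`.

OUTPUT: `a' = q + 1 - # W(F)` (via HW7 = `Calib`) and the export

  (★)  `(∃ P ≠ 0, lam • P = 0 ∧ π P = n • P) ↔ lam ∣ n² - (q + 1 - # W(F)) n + q`   (`lam ≠ l` prime).
-/

set_option autoImplicit false

open WeierstrassCurve WeierstrassCurve.Affine

namespace Fermat.Agent.EC.HW.ExportSkel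

open Fermat.Agent.LR.RedFrob

variable (F k : Type*) [Field F] [Fintype F] [Field k] [Algebra F k] [DecidableEq k]
  [IsAlgClosed k] (W : WeierstrassCurve F)

/-- The kernel of `π - n` on `E(k)`. -/
noncomputable def eigenSub (n : ℤ) : AddSubgroup (W.toAffine⁄k).Point :=
  (frobPt F k W - zsmulAddGroupHom n).ker

omit [IsAlgClosed k] in
theorem mem_eigenSub {n : ℤ} {Q : (W.toAffine⁄k).Point} :
    Q ∈ eigenSub F k W n ↔ frobPt F k W Q = n • Q := by
  rw [eigenSub, AddMonoidHom.mem_ker, AddMonoidHom.sub_apply, zsmulAddGroupHom_apply, sub_eq_zero]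

omit [IsAlgClosed k] in
theorem eigenSub_one : eigenSub F k W 1 = fixedSub F k W := by
  ext Q
  rw [mem_eigenSub, mem_fixedSub, one_zsmul]

omit [IsAlgClosed k] in
theorem eigenSub_neg_one : eigenSub F k W (-1) = antiSub F k W := by
  ext Q
  rw [mem_eigenSub, mem_antiSub, neg_one_zsmul]

omit [Fintype F] in
/-- `E(k)` is not a finite group: it has points of order `lam ^ j` for all `j`. -/
theorem not_finite_point (hΔ : (W.map (algebraMap F k)).Δ ≠ 0) :
    ¬ Finite (W.toAffine⁄k).Point := by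
  intro hfin
  -- a prime invertible in `k`
  obtain ⟨lam, hlam, hlamk⟩ : ∃ lam : ℕ, lam.Prime ∧ (lam : k) ≠ 0 := by
    by_cases h2 : ((2 : ℕ) : k) = 0
    · refine ⟨3, Nat.prime_three, fun h3 => ?_⟩
      have h1 : (1 : k) = 0 := by
        have e : ((3 : ℕ) : k) - ((2 : ℕ) : k) = 1 := by push_cast; ring
        rw [← e, h3, h2, sub_zero]
      exact one_ne_zero h1
    · exact ⟨2, Nat.prime_two, h2⟩
  have hcard : Nat.card (W.toAffine⁄k).Point ≠ 0 := Nat.card_pos.ne'
  obtain ⟨P, hP⟩ := Fermat.Agent.EC.Tor.Main.exists_addOrderOf_eq_prime_pow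
    (W.toAffine⁄k) hΔ hlam hlamk (Nat.card (W.toAffine⁄k).Point)
  have hdvd : addOrderOf P ∣ Nat.card (W.toAffine⁄k).Point := addOrderOf_dvd_natCard P
  rw [hP] at hdvd
  have hle := Nat.le_of_dvd (Nat.pos_of_ne_zero hcard) hdvd
  have hlt : Nat.card (W.toAffine⁄k).Point < lam ^ Nat.card (W.toAffine⁄k).Point :=
    Nat.lt_pow_self hlam.one_lt
  omega

section Glue

variable {l : ℕ} (d : ℤ → ℕ)
  (hfib : ∀ n : ℤ, 0 < d n → ∃ m : ℕ, Nat.card (eigenSub F k W n) * l ^ m = d n)
  (hdeg : ∀ n : ℤ, d n = 0 → ∀ P : (W.toAffine⁄k).Point, frobPt F k W P = n • P)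

include hfib hdeg

/-- The fibre inequality `# ker (π - n) ≤ d n` in all cases, for `n` with finite kernel. -/
theorem natCard_eigenSub_le (hΔ : (W.map (algebraMap F k)).Δ ≠ 0) (hl : 0 < l) (n : ℤ)
    (hfin : Finite (eigenSub F k W n)) : Nat.card (eigenSub F k W n) ≤ d n := by
  rcases Nat.eq_zero_or_pos (d n) with h0 | hpos
  · exfalso
    have htop : eigenSub F k W n = ⊤ := by
      ext P
      simp only [AddSubgroup.mem_top, iff_true]
      exact (mem_eigenSub F k W).mpr (hdeg n h0 P)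
    apply not_finite_point F k W hΔ
    rw [htop] at hfin
    exact Finite.of_equiv _ (AddSubgroup.topEquiv (G := (W.toAffine⁄k).Point)).toEquiv
  · obtain ⟨m, hm⟩ := hfib n hpos
    rw [← hm]
    exact Nat.le_mul_of_pos_right _ (Nat.pow_pos hl)

/-- **Calibration** (HW7 plugged): `a' = q + 1 - # W(F)`. -/
theorem trace_eq (hΔ : (W.map (algebraMap F k)).Δ ≠ 0) (hl : 0 < l) {a' : ℤ}
    (hd : ∀ n : ℤ, (d n : ℤ) = n ^ 2 - a' * n + Fintype.card F) :
    a' = (Fintype.card F : ℤ) + 1 - Nat.card W.toAffine.Point := by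
  have hfin1 : Finite (fixedSub F k W) :=
    Nat.finite_of_card_ne_zero (by rw [natCard_fixedSub F k W hΔ]; exact Nat.succ_ne_zero _)
  have hfinm1 : Finite (antiSub F k W) :=
    Nat.finite_of_card_ne_zero (by rw [natCard_antiSub F k W hΔ]; exact Nat.succ_ne_zero _)
  have h1 := natCard_eigenSub_le F k W d hfib hdeg hΔ hl 1 (by rw [eigenSub_one]; exact hfin1)
  have hm1 := natCard_eigenSub_le F k W d hfib hdeg hΔ hl (-1)
    (by rw [eigenSub_neg_one]; exact hfinm1)
  rw [eigenSub_one] at h1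
  rw [eigenSub_neg_one] at hm1
  exact Fermat.Agent.EC.HW.Calib.trace_eq_of_closed_form F k W hΔ hd h1 hm1

/-- **HW8, the export (★)** from the outputs of HW1–HW7. -/
theorem export_star (hΔ : (W.map (algebraMap F k)).Δ ≠ 0) (hl : l.Prime) {a' : ℤ}
    (hd : ∀ n : ℤ, (d n : ℤ) = n ^ 2 - a' * n + Fintype.card F)
    (n : ℤ) {lam : ℕ} (hlam : lam.Prime) (hlaml : lam ≠ l) (hlamk : (lam : k) ≠ 0) :
    (∃ P : (W.toAffine⁄k).Point, P ≠ 0 ∧ lam • P = 0 ∧ frobPt F k W P = n • P) ↔
      (lam : ℤ) ∣ n ^ 2 - ((Fintype.card F : ℤ) + 1 - Nat.card W.toAffine.Point) * n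
        + Fintype.card F := by
  have ha' := trace_eq F k W d hfib hdeg hΔ hl.pos hd
  rw [← ha', ← hd n, Int.natCast_dvd_natCast]
  constructor
  · rintro ⟨P, hP0, hPlam, hPn⟩
    have hfact : Fact lam.Prime := ⟨hlam⟩
    have hord : addOrderOf P = lam := addOrderOf_eq_prime hPlam hP0
    have hmem : P ∈ eigenSub F k W n := (mem_eigenSub F k W).mpr hPn
    have hdvd : lam ∣ Nat.card (eigenSub F k W n) := by
      rw [← hord]
      exact AddSubgroup.addOrderOf_dvd_natCard _ hmem
    rcases Nat.eq_zero_or_pos (d n) with h0 | hpos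
    · rw [h0]; exact dvd_zero _
    · obtain ⟨m, hm⟩ := hfib n hpos
      rw [← hm]
      exact Dvd.dvd.mul_right hdvd _
  · intro hdvd
    rcases Nat.eq_zero_or_pos (d n) with h0 | hpos
    · obtain ⟨P, hP⟩ := Fermat.Agent.EC.Tor.Main.exists_addOrderOf_eq_prime_pow
        (W.toAffine⁄k) hΔ hlam hlamk 1
      rw [pow_one] at hP
      refine ⟨P, ?_, ?_, hdeg n h0 P⟩
      · rintro rfl
        rw [addOrderOf_zero] at hP
        exact hlam.one_lt.ne hP
      · rw [← hP]; exact addOrderOf_nsmul_eq_zero P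
    · obtain ⟨m, hm⟩ := hfib n hpos
      rw [← hm] at hdvd
      have hcop : Nat.Coprime lam (l ^ m) :=
        Nat.Coprime.pow_right m ((Nat.coprime_primes hlam hl).mpr hlaml)
      have hdvd' : lam ∣ Nat.card (eigenSub F k W n) := hcop.dvd_of_dvd_mul_right hdvd
      have hne : Nat.card (eigenSub F k W n) ≠ 0 := by
        intro h
        rw [h, zero_mul] at hm
        omega
      have : Finite (eigenSub F k W n) := Nat.finite_of_card_ne_zero hne
      have hfact : Fact lam.Prime := ⟨hlam⟩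
      obtain ⟨⟨Q, hQG⟩, hQ⟩ := exists_prime_addOrderOf_dvd_card' lam hdvd'
      have hord : addOrderOf Q = lam := by
        rw [← hQ]
        exact (AddSubgroup.addOrderOf_mk Q hQG).symm
      refine ⟨Q, ?_, ?_, (mem_eigenSub F k W).mp hQG⟩
      · rintro rfl
        rw [addOrderOf_zero] at hord
        exact hlam.one_lt.ne hord
      · rw [← hord]; exact addOrderOf_nsmul_eq_zero Q

end Glue

end Fermat.Agent.EC.HW.ExportSkel
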