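import Mathlib

/-!
# Program E (S58), node (HW6-A, part 1): constant points

`k` algebraically closed, `f : k →ₐ[S] L` a homomorphism into a field `L`, `W'` a Weierstrass curve
over a subring. A point of `E(L)` whose `x`-coordinate lies in `f(k)` is the image under
`Point.map f` of a point of `E(k)` ("constant point"):

* `mem_range_of_isIntegral` : an element of `L` which is integral over `k` lies in `k`;
* `exists_map_eq_of_x_mem_range` : `P = 0 ∨ x(P) ∈ f(k)  →  ∃ D, Point.map f D = P`;
* `card_ker_eq_of_range` : abstract counting — if `ι` is injective, intertwines `φ₁`, `φ₂` and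
  every element of `ker φ₂` is in the range of `ι`, then `Nat.card ker φ₁ = Nat.card ker φ₂`.
-/

set_option autoImplicit false

namespace Fermat.Agent.EC.HW.ConstPoint

open Polynomial WeierstrassCurve WeierstrassCurve.Affine WeierstrassCurve.Affine.Point
open scoped WeierstrassCurve.Affine

/-- An element integral over an algebraically closed field lies in it. -/
theorem mem_range_of_isIntegral {k L : Type*} [Field k] [IsAlgClosed k] [Field L] [Algebra k L]
    {x : L} (hx : IsIntegral k x) : ∃ a : k, algebraMap k L a = x := by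
  have hirr := minpoly.irreducible hx
  have hdeg := IsAlgClosed.degree_eq_one_of_irreducible k hirr
  exact minpoly.mem_range_of_degree_eq_one k x hdeg

/-- Abstract counting. -/
theorem card_ker_eq_of_range {A B : Type*} [AddGroup A] [AddGroup B] (φ₁ : A →+ A) (φ₂ : B →+ B)
    (ι : A →+ B) (hι : Function.Injective ι) (hnat : ∀ D, ι (φ₁ D) = φ₂ (ι D))
    (hconst : ∀ R, φ₂ R = 0 → ∃ D, ι D = R) : Nat.card φ₁.ker = Nat.card φ₂.ker := by
  refine Nat.card_congr (Equiv.ofBijective
    (fun D : φ₁.ker => (⟨ι D.1, by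
      rw [AddMonoidHom.mem_ker, ← hnat, (AddMonoidHom.mem_ker).mp D.2, _root_.map_zero]⟩ : φ₂.ker))
    ⟨?_, ?_⟩)
  · intro D D' h
    exact Subtype.ext (hι (congrArg Subtype.val h))
  · rintro ⟨R, hR⟩
    obtain ⟨D, rfl⟩ := hconst R ((AddMonoidHom.mem_ker).mp hR)
    refine ⟨⟨D, ?_⟩, rfl⟩
    rw [AddMonoidHom.mem_ker]
    apply hι
    rw [hnat, (AddMonoidHom.mem_ker).mp hR, _root_.map_zero]

variable {R S k L : Type*} [CommRing R] [CommRing S] [Field k] [Field L] [DecidableEq k]
  [DecidableEq L] (W' : Affine R) [Algebra R S] [Algebra R k] [Algebra S k] [IsScalarTower R S k]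
  [Algebra R L] [Algebra S L] [IsScalarTower R S L]

/-- **Constant points**: a point of `E(L)` with `x`-coordinate in `f(k)` comes from `E(k)`. -/
theorem exists_map_eq_of_x_mem_range [IsAlgClosed k] (f : k →ₐ[S] L) {x y : L}
    (h : (W'⁄L).Nonsingular x y) (hx : ∃ a : k, f a = x) :
    ∃ D : (W'⁄k).Point, Point.map f D = Point.some x y h := by
  obtain ⟨a, rfl⟩ := hx
  -- the quadratic satisfied by the `y`-coordinates over `a`
  set q : k[X] := X ^ 2 + C ((W'⁄k).a₁ * a + (W'⁄k).a₃) * X
    - C (a ^ 3 + (W'⁄k).a₂ * a ^ 2 + (W'⁄k).a₄ * a + (W'⁄k).a₆) with hq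
  have hqdeg : q.natDegree = 2 := by rw [hq]; compute_degree!
  have hqmonic : q.Monic := by
    rw [hq]; monicity!
  have hsplit : q.Splits := IsAlgClosed.splits q
  -- the coefficients over `L` are the images
  have ha₁ : (W'⁄L).a₁ = f (W'⁄k).a₁ := by
    simp [WeierstrassCurve.baseChange, WeierstrassCurve.map]
  have ha₂ : (W'⁄L).a₂ = f (W'⁄k).a₂ := by
    simp [WeierstrassCurve.baseChange, WeierstrassCurve.map]
  have ha₃ : (W'⁄L).a₃ = f (W'⁄k).a₃ := by
    simp [WeierstrassCurve.baseChange, WeierstrassCurve.map]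
  have ha₄ : (W'⁄L).a₄ = f (W'⁄k).a₄ := by
    simp [WeierstrassCurve.baseChange, WeierstrassCurve.map]
  have ha₆ : (W'⁄L).a₆ = f (W'⁄k).a₆ := by
    simp [WeierstrassCurve.baseChange, WeierstrassCurve.map]
  have hy : (q.map (f : k →+* L)).eval y = 0 := by
    have heq := h.1
    rw [equation_iff, ha₁, ha₂, ha₃, ha₄, ha₆] at heq
    rw [hq]
    simp only [Polynomial.map_sub, Polynomial.map_add, Polynomial.map_pow, map_X,
      Polynomial.map_mul, map_C, eval_sub, eval_add, eval_pow, eval_X, eval_mul, eval_C,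
      RingHom.coe_coe, map_add, map_mul, map_pow]
    linear_combination heq
  -- hence `y` is the image of a root of `q`
  have hroot : ∃ b : k, q.eval b = 0 ∧ f b = y := by
    have hmem : y ∈ (q.map (f : k →+* L)).roots := by
      rw [mem_roots (Polynomial.map_ne_zero hqmonic.ne_zero)]
      exact hy
    rw [hsplit.roots_map] at hmem
    obtain ⟨b, hb, hby⟩ := Multiset.mem_map.mp hmem
    exact ⟨b, (mem_roots hqmonic.ne_zero).mp hb, hby⟩
  obtain ⟨b, -, hb⟩ := hroot
  subst hb
  have hns : (W'⁄k).Nonsingular a b := (W'.baseChange_nonsingular f.injective a b).mp h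
  exact ⟨Point.some a b hns, rfl⟩

end Fermat.Agent.EC.HW.ConstPoint
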