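import Mathlib
import Fermat.Agent.EC.HW.ConstPoint

/-!
# Program E (S58), node (HW6-A): the kernel over the big field consists of constant points;
the degenerate case

`k` algebraically closed, `K ⊇ k` (the function field), `L ⊇ k` algebraically closed (or any
field), `W0` a Weierstrass curve over a subring `F`; additive endomorphisms `φk φK φL` of
`E(k) E(K) E(L)` which are natural under `k`-algebra homomorphisms `K → L` (`natK`) and under
`k → L` (`natk`); `Pgen : E(K)` a point which can be specialised to every point of `E(L)` with
transcendental `x`-coordinate (`hev`, = `GenericPoint.evHom`).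

* `card_ker_eq` : if `φK Pgen ≠ 0` then `Nat.card φk.ker = Nat.card φL.ker`;
* `ker_eq_top_of_const` : if `φK Pgen` is `0` or a constant point, then `φk = 0`.
-/

set_option autoImplicit false

namespace Fermat.Agent.EC.HW.FibreConst

open Polynomial WeierstrassCurve WeierstrassCurve.Affine WeierstrassCurve.Affine.Point
open scoped WeierstrassCurve.Affine
open Fermat.Agent.EC.HW.ConstPoint

variable {F k K L : Type*} [CommRing F] [Field k] [Field K] [Field L] [DecidableEq k]
  [DecidableEq K] [DecidableEq L] (W0 : Affine F) [Algebra F k] [Algebra F K] [Algebra F L]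
  [Algebra k K] [Algebra k L] [IsScalarTower F k K] [IsScalarTower F k L]

/-- The inclusion of the constant points in `E(L)`. -/
noncomputable abbrev constL : (W0⁄k).Point →+ (W0⁄L).Point :=
  Point.map ((Algebra.ofId k L).restrictScalars F)

/-- The inclusion of the constant points in `E(K)`. -/
noncomputable abbrev constK : (W0⁄k).Point →+ (W0⁄K).Point :=
  Point.map ((Algebra.ofId k K).restrictScalars F)

omit [DecidableEq k] [DecidableEq K] [DecidableEq L] in
theorem comp_ofId (f : K →ₐ[k] L) :
    (f.restrictScalars F).comp ((Algebra.ofId k K).restrictScalars F) =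
      (Algebra.ofId k L).restrictScalars F := by
  ext a
  simp [Algebra.ofId_apply]

/-- A `k`-algebra homomorphism fixes the constant points. -/
theorem map_constK (f : K →ₐ[k] L) (C : (W0⁄k).Point) :
    Point.map (f.restrictScalars F) (constK (K := K) W0 C) = constL (L := L) W0 C := by
  rw [constK, constL, Point.map_map, comp_ofId]

variable (φk : (W0⁄k).Point →+ (W0⁄k).Point) (φK : (W0⁄K).Point →+ (W0⁄K).Point)
  (φL : (W0⁄L).Point →+ (W0⁄L).Point) (Pgen : (W0⁄K).Point)

/-- **(A)** the kernel of `φL` consists of constant points, hence has the cardinality of the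
kernel of `φk`. -/
theorem card_ker_eq [IsAlgClosed k]
    (natK : ∀ (f : K →ₐ[k] L) (P : (W0⁄K).Point),
      Point.map (f.restrictScalars F) (φK P) = φL (Point.map (f.restrictScalars F) P))
    (natk : ∀ P : (W0⁄k).Point, constL (L := L) W0 (φk P) = φL (constL (L := L) W0 P))
    (hev : ∀ (x y : L) (h : (W0⁄L).Nonsingular x y), Transcendental k x →
      ∃ f : K →ₐ[k] L, Point.map (f.restrictScalars F) Pgen = Point.some x y h)
    (hQ : φK Pgen ≠ 0) : Nat.card φk.ker = Nat.card φL.ker := by
  refine card_ker_eq_of_range φk φL (constL (L := L) W0) (Point.map_injective _) natk ?_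
  rintro (_ | ⟨x, y, h⟩) hR
  · exact ⟨0, rfl⟩
  · by_cases hx : Transcendental k x
    · exfalso
      obtain ⟨f, hf⟩ := hev x y h hx
      rw [← hf, ← natK] at hR
      exact hQ (Point.map_injective (f.restrictScalars F)
        (by rw [hR]; rfl))
    · have hint : IsIntegral k x := by
        have : IsAlgebraic k x := by
          by_contra h'; exact hx h'
        exact this.isIntegral
      obtain ⟨a, ha⟩ := mem_range_of_isIntegral hint
      exact exists_map_eq_of_x_mem_range W0 ((Algebra.ofId k L).restrictScalars F) h
        ⟨a, by simpa [Algebra.ofId_apply] using ha⟩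

/-- **The degenerate case**: if `φK Pgen` is zero or constant, then `φk = 0`. -/
theorem ker_eq_top_of_const [IsAlgClosed k]
    (natK : ∀ (f : K →ₐ[k] L) (P : (W0⁄K).Point),
      Point.map (f.restrictScalars F) (φK P) = φL (Point.map (f.restrictScalars F) P))
    (natk : ∀ P : (W0⁄k).Point, constL (L := L) W0 (φk P) = φL (constL (L := L) W0 P))
    (hev : ∀ (x y : L) (h : (W0⁄L).Nonsingular x y), Transcendental k x →
      ∃ f : K →ₐ[k] L, Point.map (f.restrictScalars F) Pgen = Point.some x y h)
    {xg yg : L} (hg : (W0⁄L).Nonsingular xg yg) (hxg : Transcendental k xg)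
    (hQ0 : ∃ C : (W0⁄k).Point, φK Pgen = constK (K := K) W0 C) (D : (W0⁄k).Point) :
    φk D = 0 := by
  obtain ⟨C, hC⟩ := hQ0
  -- `φL` takes the value `constL C` at every point with transcendental `x`-coordinate
  have hval : ∀ (x y : L) (h : (W0⁄L).Nonsingular x y), Transcendental k x →
      φL (Point.some x y h) = constL (L := L) W0 C := by
    intro x y h hx
    obtain ⟨f, hf⟩ := hev x y h hx
    rw [← hf, ← natK, hC, map_constK]
  -- the point `Pg + const D` has a transcendental `x`-coordinate
  set Pg : (W0⁄L).Point := Point.some xg yg hg with hPg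
  have hkey : φL (Pg + constL (L := L) W0 D) = constL (L := L) W0 C := by
    rcases hR : Pg + constL (L := L) W0 D with _ | ⟨x, y, h⟩
    · -- then `Pg` is constant: impossible
      exfalso
      have hPgc : Pg = constL (L := L) W0 (-D) := by
        rw [map_neg]; exact eq_neg_of_add_eq_zero_left hR
      rcases hD : -D with _ | ⟨a, b, hab⟩
      · rw [hD] at hPgc; exact Point.some_ne_zero hg hPgc
      · rw [hD, hPg, Point.map_some] at hPgc
        have hxa : xg = algebraMap k L a := by
          have := (Point.some.inj hPgc).1
          simpa [Algebra.ofId_apply] using this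
        exact hxg (hxa ▸ isAlgebraic_algebraMap a)
    · by_cases hx : Transcendental k x
      · exact hval x y h hx
      · exfalso
        have hint : IsIntegral k x := by
          have : IsAlgebraic k x := by
            by_contra h'; exact hx h'
          exact this.isIntegral
        obtain ⟨a, ha⟩ := mem_range_of_isIntegral hint
        obtain ⟨D', hD'⟩ := exists_map_eq_of_x_mem_range W0
          ((Algebra.ofId k L).restrictScalars F) h ⟨a, by simpa [Algebra.ofId_apply] using ha⟩
        have hPgc : Pg = constL (L := L) W0 (D' - D) := by
          rw [map_sub]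
          have : constL (L := L) W0 D' = Pg + constL (L := L) W0 D := by rw [hR]; exact hD'
          rw [this]; abel
        rcases hD2 : D' - D with _ | ⟨a', b', hab'⟩
        · rw [hD2] at hPgc; exact Point.some_ne_zero hg hPgc
        · rw [hD2, hPg, Point.map_some] at hPgc
          have hxa : xg = algebraMap k L a' := by
            have := (Point.some.inj hPgc).1
            simpa [Algebra.ofId_apply] using this
          exact hxg (hxa ▸ isAlgebraic_algebraMap a')
  have hPgv : φL Pg = constL (L := L) W0 C := hval xg yg hg hxg
  have h0 : φL (constL (L := L) W0 D) = 0 := by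
    have := hkey
    rw [map_add, hPgv] at this
    exact add_eq_left.mp this
  rw [← natk] at h0
  exact Point.map_injective ((Algebra.ofId k L).restrictScalars F) (by rw [h0]; rfl)

end Fermat.Agent.EC.HW.FibreConst
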