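import Mathlib

/-!
# Program E (S58), block HW: the generic point of a Weierstrass curve and evaluation homomorphisms

`F` a commutative ring, `W0` a Weierstrass curve over `F`, `k` a field over `F`,
`K = k(W0⁄k)` the function field of the base change.

* `xK`, `yK : K` : the coordinate functions; `equation_generic`, `genericPoint : (W0⁄K).Point`;
* for a field `L` over `k` and `ξ η : L` satisfying the Weierstrass equation with `ξ` transcendental
  over `k` : the `k`-algebra homomorphism `evHom : K →ₐ[k] L` with `x ↦ ξ`, `y ↦ η`, and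
  `map_evHom_genericPoint : Point.map evHom genericPoint = (ξ, η)`.

Since Mathlib's `Point.map` is a group homomorphism, every construction made from the group law and
from maps of the form `Point.map g` (e.g. the Frobenius) on the generic point specialises for free
to all points with transcendental `x`-coordinate.
-/

set_option autoImplicit false

noncomputable section

namespace Fermat.Agent.EC.HW.GenericPoint

open WeierstrassCurve WeierstrassCurve.Affine Polynomial
open scoped Polynomial.Bivariate

variable {F : Type*} [CommRing F] (W0 : WeierstrassCurve F) (k : Type*) [Field k] [Algebra F k]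

/-- The coordinate ring of `W0⁄k`. -/
abbrev AA : Type _ := (W0.baseChange k).toAffine.CoordinateRing

/-- The function field of `W0⁄k`. -/
abbrev KK : Type _ := (W0.baseChange k).toAffine.FunctionField

instance finite_coordinateRing : Module.Finite k[X] (AA W0 k) :=
  Module.Finite.of_basis (CoordinateRing.basis (W0.baseChange k).toAffine)

instance isIntegral_coordinateRing : Algebra.IsIntegral k[X] (AA W0 k) :=
  Algebra.IsIntegral.of_finite _ _

/-- The coordinate function `x` in the coordinate ring. -/
def xA : AA W0 k := CoordinateRing.mk (W0.baseChange k).toAffine (C X)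

/-- The coordinate function `y` in the coordinate ring. -/
def yA : AA W0 k := CoordinateRing.mk (W0.baseChange k).toAffine Y

/-- The coordinate function `x`. -/
def xK : KK W0 k := algebraMap (AA W0 k) (KK W0 k) (xA W0 k)

/-- The coordinate function `y`. -/
def yK : KK W0 k := algebraMap (AA W0 k) (KK W0 k) (yA W0 k)

theorem algebraMap_poly_eq (p : k[X]) :
    algebraMap k[X] (AA W0 k) p = CoordinateRing.mk (W0.baseChange k).toAffine (C p) := rfl

theorem algebraMap_X_eq : algebraMap k[X] (AA W0 k) X = xA W0 k := rfl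

/-- `aeval` at `xA` is the structure map of the `k[X]`-algebra `k[W]`. -/
theorem aeval_xA (p : k[X]) : aeval (xA W0 k) p = algebraMap k[X] (AA W0 k) p := by
  rw [← algebraMap_X_eq, aeval_algebraMap_apply, aeval_X_left_apply]

/-- `aeval` at `xK`. -/
theorem aeval_xK (p : k[X]) :
    aeval (xK W0 k) p = algebraMap (AA W0 k) (KK W0 k) (algebraMap k[X] (AA W0 k) p) := by
  unfold xK
  rw [aeval_algebraMap_apply, aeval_xA]

/-- The Weierstrass equation in the coordinate ring. -/
theorem weierstrass_xA_yA :
    yA W0 k ^ 2 + algebraMap F (AA W0 k) W0.a₁ * xA W0 k * yA W0 k +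
        algebraMap F (AA W0 k) W0.a₃ * yA W0 k =
      xA W0 k ^ 3 + algebraMap F (AA W0 k) W0.a₂ * xA W0 k ^ 2 +
        algebraMap F (AA W0 k) W0.a₄ * xA W0 k + algebraMap F (AA W0 k) W0.a₆ := by
  have h : CoordinateRing.mk (W0.baseChange k).toAffine (W0.baseChange k).toAffine.polynomial = 0 :=
    AdjoinRoot.mk_self
  simp only [Affine.polynomial] at h
  simp only [map_sub, map_add, map_mul, map_pow] at h
  have e : ∀ a : k, CoordinateRing.mk (W0.baseChange k).toAffine (C (C a)) =
      algebraMap k (AA W0 k) a := fun a => rfl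
  rw [e, e, e, e, e] at h
  have c1 : (W0.baseChange k).toAffine.a₁ = algebraMap F k W0.a₁ := rfl
  have c2 : (W0.baseChange k).toAffine.a₂ = algebraMap F k W0.a₂ := rfl
  have c3 : (W0.baseChange k).toAffine.a₃ = algebraMap F k W0.a₃ := rfl
  have c4 : (W0.baseChange k).toAffine.a₄ = algebraMap F k W0.a₄ := rfl
  have c6 : (W0.baseChange k).toAffine.a₆ = algebraMap F k W0.a₆ := rfl
  rw [c1, c2, c3, c4, c6] at h
  simp only [← IsScalarTower.algebraMap_apply F k (AA W0 k)] at h
  unfold xA yA
  linear_combination h

/-- The generic point satisfies the Weierstrass equation. -/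
theorem equation_generic :
    ((W0.toAffine⁄(KK W0 k)) : Affine (KK W0 k)).Equation (xK W0 k) (yK W0 k) := by
  rw [equation_iff]
  have h := congrArg (algebraMap (AA W0 k) (KK W0 k)) (weierstrass_xA_yA W0 k)
  simp only [map_add, map_mul, map_pow, ← IsScalarTower.algebraMap_apply] at h
  have d1 : ((W0.toAffine⁄(KK W0 k)) : Affine (KK W0 k)).a₁ = algebraMap F (KK W0 k) W0.a₁ := rfl
  have d2 : ((W0.toAffine⁄(KK W0 k)) : Affine (KK W0 k)).a₂ = algebraMap F (KK W0 k) W0.a₂ := rfl
  have d3 : ((W0.toAffine⁄(KK W0 k)) : Affine (KK W0 k)).a₃ = algebraMap F (KK W0 k) W0.a₃ := rfl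
  have d4 : ((W0.toAffine⁄(KK W0 k)) : Affine (KK W0 k)).a₄ = algebraMap F (KK W0 k) W0.a₄ := rfl
  have d6 : ((W0.toAffine⁄(KK W0 k)) : Affine (KK W0 k)).a₆ = algebraMap F (KK W0 k) W0.a₆ := rfl
  rw [d1, d2, d3, d4, d6]
  exact h

section Point

instance isElliptic_baseChange [W0.IsElliptic] (S : Type*) [CommRing S] [Algebra F S] :
    WeierstrassCurve.IsElliptic ((W0.toAffine⁄S) : Affine S) :=
  inferInstanceAs (W0.map (algebraMap F S)).IsElliptic

variable [W0.IsElliptic]

/-- The generic point is nonsingular. -/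
theorem nonsingular_generic :
    ((W0.toAffine⁄(KK W0 k)) : Affine (KK W0 k)).Nonsingular (xK W0 k) (yK W0 k) :=
  (equation_iff_nonsingular).mp (equation_generic W0 k)

/-- The generic point. -/
def genericPoint : ((W0.toAffine⁄(KK W0 k)) : Affine (KK W0 k)).Point :=
  Point.some _ _ (nonsingular_generic W0 k)

end Point

section Eval

variable {L : Type*} [Field L] [Algebra F L] [Algebra k L] [IsScalarTower F k L] {ξ η : L}

/-- The evaluation homomorphism on the coordinate ring. -/
def evA (h : ((W0.toAffine⁄L) : Affine L).Equation ξ η) : AA W0 k →ₐ[k] L :=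
  AdjoinRoot.liftAlgHom (W0.baseChange k).toAffine.polynomial
    (Polynomial.aeval ξ : k[X] →ₐ[k] L) η (by
    rw [equation_iff] at h
    simp only [Affine.polynomial, eval₂_sub, eval₂_add, eval₂_mul, eval₂_pow, eval₂_X, eval₂_C,
      AlgHom.coe_toRingHom, map_add, map_mul, map_pow, aeval_X, aeval_C]
    have c1 : (W0.baseChange k).toAffine.a₁ = algebraMap F k W0.a₁ := rfl
    have c2 : (W0.baseChange k).toAffine.a₂ = algebraMap F k W0.a₂ := rfl
    have c3 : (W0.baseChange k).toAffine.a₃ = algebraMap F k W0.a₃ := rfl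
    have c4 : (W0.baseChange k).toAffine.a₄ = algebraMap F k W0.a₄ := rfl
    have c6 : (W0.baseChange k).toAffine.a₆ = algebraMap F k W0.a₆ := rfl
    have d1 : ((W0.toAffine⁄L) : Affine L).a₁ = algebraMap F L W0.a₁ := rfl
    have d2 : ((W0.toAffine⁄L) : Affine L).a₂ = algebraMap F L W0.a₂ := rfl
    have d3 : ((W0.toAffine⁄L) : Affine L).a₃ = algebraMap F L W0.a₃ := rfl
    have d4 : ((W0.toAffine⁄L) : Affine L).a₄ = algebraMap F L W0.a₄ := rfl
    have d6 : ((W0.toAffine⁄L) : Affine L).a₆ = algebraMap F L W0.a₆ := rfl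
    rw [d1, d2, d3, d4, d6] at h
    rw [c1, c2, c3, c4, c6]
    simp only [← IsScalarTower.algebraMap_apply F k L]
    linear_combination h)

variable {W0 k}
variable (h : ((W0.toAffine⁄L) : Affine L).Equation ξ η)

@[simp]
theorem evA_xA : evA W0 k h (xA W0 k) = ξ := by
  unfold evA xA
  rw [CoordinateRing.mk, AdjoinRoot.liftAlgHom_mk]
  simp

@[simp]
theorem evA_yA : evA W0 k h (yA W0 k) = η := by
  unfold evA yA
  rw [CoordinateRing.mk, AdjoinRoot.liftAlgHom_mk]
  simp

theorem evA_algebraMap_poly (p : k[X]) : evA W0 k h (algebraMap k[X] (AA W0 k) p) = aeval ξ p := by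
  unfold evA
  rw [algebraMap_poly_eq, CoordinateRing.mk, AdjoinRoot.liftAlgHom_mk]
  simp

/-- The evaluation homomorphism is injective when `ξ` is transcendental. -/
theorem evA_injective (hξ : Transcendental k ξ) : Function.Injective (evA W0 k h) := by
  rw [injective_iff_map_eq_zero]
  have hbot : RingHom.ker (evA W0 k h : AA W0 k →+* L) = ⊥ := by
    apply Ideal.eq_bot_of_comap_eq_bot (R := k[X])
    rw [eq_bot_iff]
    intro p hp
    rw [Ideal.mem_comap, RingHom.mem_ker] at hp
    have h1 : aeval ξ p = 0 := by
      rw [← evA_algebraMap_poly h]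
      exact hp
    rw [Ideal.mem_bot]
    exact (transcendental_iff.mp hξ) p h1
  intro a ha
  have : a ∈ RingHom.ker (evA W0 k h : AA W0 k →+* L) := ha
  rwa [hbot, Ideal.mem_bot] at this

/-- The evaluation homomorphism `k(W) → L` at a point with transcendental `x`-coordinate. -/
def evHom (hξ : Transcendental k ξ) : KK W0 k →ₐ[k] L :=
  IsFractionRing.liftAlgHom (g := evA W0 k h) (evA_injective h hξ)

variable (hξ : Transcendental k ξ)

@[simp]
theorem evHom_xK : evHom h hξ (xK W0 k) = ξ := by
  unfold evHom xK
  rw [IsFractionRing.liftAlgHom_apply, IsFractionRing.lift_algebraMap]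
  exact evA_xA h

@[simp]
theorem evHom_yK : evHom h hξ (yK W0 k) = η := by
  unfold evHom yK
  rw [IsFractionRing.liftAlgHom_apply, IsFractionRing.lift_algebraMap]
  exact evA_yA h

/-- The evaluation homomorphism on polynomials in `x`. -/
theorem evHom_aeval_xK (p : k[X]) : evHom h hξ (aeval (xK W0 k) p) = aeval ξ p := by
  rw [← aeval_algHom_apply, evHom_xK]

/-- The evaluation homomorphism maps the generic point to `(ξ, η)`. -/
theorem map_evHom_genericPoint [W0.IsElliptic] [DecidableEq (KK W0 k)] [DecidableEq L]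
    (hns : ((W0.toAffine⁄L) : Affine L).Nonsingular ξ η) :
    Point.map (W' := W0.toAffine) (evHom h hξ) (genericPoint W0 k) = Point.some ξ η hns := by
  unfold genericPoint
  rw [Point.map_some, Point.some.injEq]
  exact ⟨evHom_xK h hξ, evHom_yK h hξ⟩

end Eval

end Fermat.Agent.EC.HW.GenericPoint
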