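import Mathlib
import Fermat.Agent.EC.HW.GenericPoint

/-!
# Program E (S58), block HW, node HW6 (A): the kernel of a natural endomorphism is constant

`W0` an elliptic curve over `F`, `k` an algebraically closed field over `F`, `K = k(W0⁄k)`,
`Ω` a field over `k`.  Let `φK`, `φΩ`, `φk` be additive endomorphisms of the groups of points over
`K`, `Ω`, `k`, natural with respect to the `k`-algebra homomorphisms `K → Ω` and `k → Ω`, and assume
`φK (generic point) ≠ 0`.  Then

* `mem_range_of_map_eq_zero` : every `R` with `φΩ R = 0` has coordinates in `k`;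
* `card_ker_eq` : `Nat.card φk.ker = Nat.card φΩ.ker`.
-/

set_option autoImplicit false

noncomputable section

namespace Fermat.Agent.EC.HW.FibreKer

open WeierstrassCurve WeierstrassCurve.Affine Polynomial
open Fermat.Agent.EC.HW.GenericPoint

section Algebraic

variable {k Ω : Type*} [Field k] [Field Ω] [Algebra k Ω] [IsAlgClosed k]

/-- Elements of an extension of an algebraically closed field which are algebraic over it lie in
it. -/
theorem mem_range_of_isAlgebraic {ρ : Ω} (h : IsAlgebraic k ρ) :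
    ρ ∈ Set.range (algebraMap k Ω) := by
  have hi : IsIntegral k ρ := h.isIntegral
  apply minpoly.mem_range_of_degree_eq_one
  exact IsAlgClosed.degree_eq_one_of_irreducible k (minpoly.irreducible hi)

theorem mem_range_of_not_transcendental {ρ : Ω} (h : ¬ Transcendental k ρ) :
    ρ ∈ Set.range (algebraMap k Ω) :=
  mem_range_of_isAlgebraic (by rwa [Transcendental, not_not] at h)

theorem transcendental_of_not_mem_range {ρ : Ω} (h : ρ ∉ Set.range (algebraMap k Ω)) :
    Transcendental k ρ := by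
  by_contra hn
  exact h (mem_range_of_not_transcendental hn)

end Algebraic

variable {F : Type*} [CommRing F] (W0 : WeierstrassCurve F) [W0.IsElliptic]
  (k : Type*) [Field k] [Algebra F k]
  {Ω : Type*} [Field Ω] [Algebra F Ω] [Algebra k Ω] [IsScalarTower F k Ω]
  [DecidableEq k] [DecidableEq Ω] [DecidableEq (KK W0 k)]

/-- The constant points. -/
abbrev constMap : ((W0.toAffine⁄k) : Affine k).Point →+ ((W0.toAffine⁄Ω) : Affine Ω).Point :=
  Point.map (W' := W0.toAffine) (Algebra.ofId k Ω)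

variable {W0 k}

omit [W0.IsElliptic] [DecidableEq (KK W0 k)] in
/-- A point whose `x`-coordinate is algebraic over `k` is constant. -/
theorem mem_range_constMap_of_mem_range [IsAlgClosed k] {ρ σ : Ω}
    (h : ((W0.toAffine⁄Ω) : Affine Ω).Nonsingular ρ σ) (hρ : ρ ∈ Set.range (algebraMap k Ω)) :
    Point.some ρ σ h ∈ Set.range (constMap W0 k (Ω := Ω)) := by
  obtain ⟨ρ₀, rfl⟩ := hρ
  -- `σ` is integral over `k`
  have hσ : IsIntegral k σ := by
    have heq := (equation_iff _ _).mp h.1
    have d1 : ((W0.toAffine⁄Ω) : Affine Ω).a₁ = algebraMap k Ω (algebraMap F k W0.a₁) :=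
      (IsScalarTower.algebraMap_apply F k Ω _)
    have d2 : ((W0.toAffine⁄Ω) : Affine Ω).a₂ = algebraMap k Ω (algebraMap F k W0.a₂) :=
      (IsScalarTower.algebraMap_apply F k Ω _)
    have d3 : ((W0.toAffine⁄Ω) : Affine Ω).a₃ = algebraMap k Ω (algebraMap F k W0.a₃) :=
      (IsScalarTower.algebraMap_apply F k Ω _)
    have d4 : ((W0.toAffine⁄Ω) : Affine Ω).a₄ = algebraMap k Ω (algebraMap F k W0.a₄) :=
      (IsScalarTower.algebraMap_apply F k Ω _)
    have d6 : ((W0.toAffine⁄Ω) : Affine Ω).a₆ = algebraMap k Ω (algebraMap F k W0.a₆) :=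
      (IsScalarTower.algebraMap_apply F k Ω _)
    rw [d1, d2, d3, d4, d6] at heq
    refine ⟨X ^ 2 + C (algebraMap F k W0.a₁ * ρ₀ + algebraMap F k W0.a₃) * X -
      C (ρ₀ ^ 3 + algebraMap F k W0.a₂ * ρ₀ ^ 2 + algebraMap F k W0.a₄ * ρ₀ +
        algebraMap F k W0.a₆), ?_, ?_⟩
    · have e : X ^ 2 + C (algebraMap F k W0.a₁ * ρ₀ + algebraMap F k W0.a₃) * X -
          C (ρ₀ ^ 3 + algebraMap F k W0.a₂ * ρ₀ ^ 2 + algebraMap F k W0.a₄ * ρ₀ +
            algebraMap F k W0.a₆) =
          X ^ 2 + (C (algebraMap F k W0.a₁ * ρ₀ + algebraMap F k W0.a₃) * X +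
          C (-(ρ₀ ^ 3 + algebraMap F k W0.a₂ * ρ₀ ^ 2 + algebraMap F k W0.a₄ * ρ₀ +
            algebraMap F k W0.a₆))) := by
        rw [C_neg]; ring
      rw [e]
      apply monic_X_pow_add
      exact lt_of_le_of_lt degree_linear_le (by norm_num)
    · simp only [eval₂_sub, eval₂_add, eval₂_mul, eval₂_pow, eval₂_X, eval₂_C, map_add, map_mul,
        map_pow]
      linear_combination heq
  obtain ⟨σ₀, rfl⟩ := mem_range_of_isAlgebraic (isAlgebraic_iff_isIntegral.mpr hσ)
  have h0 : ((W0.toAffine⁄k) : Affine k).Nonsingular ρ₀ σ₀ :=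
    (W0.toAffine.baseChange_nonsingular (f := Algebra.ofId k Ω)
      (algebraMap k Ω).injective ρ₀ σ₀).mp h
  exact ⟨Point.some ρ₀ σ₀ h0, rfl⟩

section Natural

variable (φK : ((W0.toAffine⁄(KK W0 k)) : Affine (KK W0 k)).Point →+
    ((W0.toAffine⁄(KK W0 k)) : Affine (KK W0 k)).Point)
  (φΩ : ((W0.toAffine⁄Ω) : Affine Ω).Point →+ ((W0.toAffine⁄Ω) : Affine Ω).Point)
  (φk : ((W0.toAffine⁄k) : Affine k).Point →+ ((W0.toAffine⁄k) : Affine k).Point)

/-- Naturality with respect to the `k`-algebra homomorphisms `K → Ω`. -/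
def NatK : Prop :=
  ∀ (f : KK W0 k →ₐ[k] Ω) (P : ((W0.toAffine⁄(KK W0 k)) : Affine (KK W0 k)).Point),
    Point.map (W' := W0.toAffine) f (φK P) = φΩ (Point.map (W' := W0.toAffine) f P)

/-- Naturality with respect to `k → Ω`. -/
def Natk : Prop :=
  ∀ P : ((W0.toAffine⁄k) : Affine k).Point, constMap W0 k (φk P) = φΩ (constMap W0 k P)

variable {φK φΩ φk}

omit [DecidableEq k] in
/-- **Specialisation for free**: at a point `R = (ρ, σ)` with `ρ` transcendental over `k`, `φΩ R`
is the image of `φK (generic point)` under the evaluation homomorphism at `R`. -/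
theorem map_eq_map_evHom (hK : NatK φK φΩ) {ρ σ : Ω}
    (h : ((W0.toAffine⁄Ω) : Affine Ω).Nonsingular ρ σ) (hρ : Transcendental k ρ) :
    φΩ (Point.some ρ σ h) =
      Point.map (W' := W0.toAffine) (evHom h.1 hρ) (φK (genericPoint W0 k)) := by
  rw [hK (evHom h.1 hρ) (genericPoint W0 k), map_evHom_genericPoint h.1 hρ h]

/-- **(A)** The kernel of `φΩ` consists of constant points. -/
theorem mem_range_of_map_eq_zero [IsAlgClosed k] (hK : NatK φK φΩ)
    (hQ : φK (genericPoint W0 k) ≠ 0) {R : ((W0.toAffine⁄Ω) : Affine Ω).Point}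
    (hR : φΩ R = 0) : R ∈ Set.range (constMap W0 k (Ω := Ω)) := by
  rcases R with _ | ⟨ρ, σ, h⟩
  · exact ⟨0, map_zero _⟩
  · by_cases hρ : Transcendental k ρ
    · exfalso
      rw [map_eq_map_evHom hK h hρ] at hR
      apply hQ
      apply Point.map_injective (W' := W0.toAffine) (evHom h.1 hρ)
      rw [hR, map_zero]
    · exact mem_range_constMap_of_mem_range h (mem_range_of_not_transcendental hρ)

omit [W0.IsElliptic] [DecidableEq (KK W0 k)] in
theorem constMap_injective : Function.Injective (constMap W0 k (Ω := Ω)) :=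
  Point.map_injective (W' := W0.toAffine) (Algebra.ofId k Ω)

/-- **(A')** The kernels of `φk` and `φΩ` have the same cardinality. -/
theorem card_ker_eq [IsAlgClosed k] (hK : NatK φK φΩ) (hk : Natk φΩ φk)
    (hQ : φK (genericPoint W0 k) ≠ 0) : Nat.card φk.ker = Nat.card φΩ.ker := by
  refine Nat.card_congr (Equiv.ofBijective
    (fun P : φk.ker => (⟨constMap W0 k P.1, by
      rw [AddMonoidHom.mem_ker, ← hk P.1, (AddMonoidHom.mem_ker).mp P.2, map_zero]⟩ : φΩ.ker))
    ⟨?_, ?_⟩)
  · intro P P' hPP'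
    have h1 : constMap W0 k (Ω := Ω) P.1 = constMap W0 k P'.1 := congrArg Subtype.val hPP'
    exact Subtype.ext (constMap_injective h1)
  · rintro ⟨R, hR⟩
    obtain ⟨P, rfl⟩ := mem_range_of_map_eq_zero hK hQ ((AddMonoidHom.mem_ker).mp hR)
    have hP : φk P = 0 := by
      apply constMap_injective (W0 := W0) (k := k) (Ω := Ω)
      rw [hk P, (AddMonoidHom.mem_ker).mp hR, map_zero]
    exact ⟨⟨P, (AddMonoidHom.mem_ker).mpr hP⟩, rfl⟩

end Natural

end Fermat.Agent.EC.HW.FibreKer
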