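import Mathlib
import Fermat.Agent.EC.HW.FibreKer
import Fermat.Agent.LR.RedFrobCount

/-!
# Program E (S58), block HW, node HW6 (B, C): the fibre of a natural endomorphism over the generic
point

Setting of `FibreKer`: `W0` elliptic over `F`, `k` algebraically closed over `F`, `K = k(W0⁄k)`,
`Ω` an algebraically closed field over `k` with a `k`-embedding `ι0 : K → Ω`, and additive
endomorphisms `φK`, `φΩ`, `φk` natural in `K → Ω`, `k → Ω`.  Suppose the `x`-coordinate of
`φK (generic point)` is represented by the coprime pair `(p 0, p 1)` of polynomials in `x`.  Then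

* `card_fibre_eq` : `R ↦ x(R)` is a bijection from `φΩ⁻¹(Pg)` (`Pg` the image of the generic point
  in `E(Ω)`) onto the set of roots `ρ ∈ Ω` of `p 0 (ρ) = x · p 1 (ρ)`;
* `card_ker_eq_card_roots` : `Nat.card φk.ker` is the number of these roots.
-/

set_option autoImplicit false

noncomputable section

namespace Fermat.Agent.EC.HW.FibreGeneric

open WeierstrassCurve WeierstrassCurve.Affine Polynomial
open scoped Polynomial.Bivariate
open Fermat.Agent.EC.HW.GenericPoint Fermat.Agent.EC.HW.FibreKer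

section Basic

/-- `xRep` commutes with `Point.map`. -/
theorem xRep_map {R S L L' : Type*} [CommRing R] [CommRing S] [Field L] [Field L']
    {W' : Affine R} [DecidableEq L] [DecidableEq L'] [Algebra R S] [Algebra R L] [Algebra S L]
    [IsScalarTower R S L] [Algebra R L'] [Algebra S L'] [IsScalarTower R S L'] (f : L →ₐ[S] L')
    (P : ((W'⁄L) : Affine L).Point) :
    (Point.map (W' := W') f P).xRep = fun i => f (P.xRep i) := by
  rcases P with _ | ⟨x, y, h⟩
  · rw [show (Point.zero : ((W'⁄L) : Affine L).Point) = 0 from rfl, map_zero, Point.xRep_zero,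
      Point.xRep_zero]
    funext i
    fin_cases i <;> simp
  · rw [Point.map_some, Point.xRep_some, Point.xRep_some]
    funext i
    fin_cases i <;> simp

/-- Points with proportional `xRep` are equal up to sign. -/
theorem eq_or_eq_neg_of_xRep {L : Type*} [Field L] [DecidableEq L] {W : Affine L}
    {A B : W.Point} {c : L} (h : A.xRep = c • B.xRep) (hc : c ≠ 0) : A = B ∨ A = -B := by
  rcases A with _ | ⟨x₁, y₁, h₁⟩ <;> rcases B with _ | ⟨x₂, y₂, h₂⟩
  · exact Or.inl rfl
  · exfalso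
    rw [show (Point.zero : W.Point) = 0 from rfl, Point.xRep_zero, Point.xRep_some] at h
    have := congrFun h 1
    simp at this
    exact hc this.symm
  · exfalso
    rw [show (Point.zero : W.Point) = 0 from rfl, Point.xRep_zero, Point.xRep_some] at h
    have := congrFun h 1
    simp at this
  · rw [Point.xRep_some, Point.xRep_some] at h
    have h1 := congrFun h 1
    have h0 := congrFun h 0
    simp at h1 h0
    rw [← h1, one_mul] at h0
    exact Point.X_eq_iff.mp h0

end Basic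

variable {F : Type*} [CommRing F] (W0 : WeierstrassCurve F) [W0.IsElliptic]
  (k : Type*) [Field k] [Algebra F k]

omit [W0.IsElliptic] in
/-- The coordinate function `x` is transcendental over `k`. -/
theorem transcendental_xK : Transcendental k (xK W0 k) := by
  rw [transcendental_iff]
  intro p hp
  rw [aeval_xK] at hp
  have h1 := (FaithfulSMul.algebraMap_injective (AA W0 k) (KK W0 k)) (hp.trans (map_zero _).symm)
  exact (FaithfulSMul.algebraMap_injective k[X] (AA W0 k)) (h1.trans (map_zero _).symm)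

/-- The generic point is not a `2`-torsion point: `y ≠ -y - a₁ x - a₃`. -/
theorem yK_ne_negY :
    yK W0 k ≠ ((W0.toAffine⁄(KK W0 k)) : Affine (KK W0 k)).negY (xK W0 k) (yK W0 k) := by
  intro h
  rw [negY] at h
  have d1 : ((W0.toAffine⁄(KK W0 k)) : Affine (KK W0 k)).a₁ =
      algebraMap (AA W0 k) (KK W0 k) (algebraMap k (AA W0 k) (algebraMap F k W0.a₁)) := by
    rw [← IsScalarTower.algebraMap_apply, ← IsScalarTower.algebraMap_apply]; rfl
  have d3 : ((W0.toAffine⁄(KK W0 k)) : Affine (KK W0 k)).a₃ =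
      algebraMap (AA W0 k) (KK W0 k) (algebraMap k (AA W0 k) (algebraMap F k W0.a₃)) := by
    rw [← IsScalarTower.algebraMap_apply, ← IsScalarTower.algebraMap_apply]; rfl
  rw [d1, d3] at h
  unfold xK yK at h
  have h1 : algebraMap (AA W0 k) (KK W0 k)
      (2 * yA W0 k + algebraMap k (AA W0 k) (algebraMap F k W0.a₁) * xA W0 k +
        algebraMap k (AA W0 k) (algebraMap F k W0.a₃)) = 0 := by
    simp only [map_add, map_mul, map_ofNat]
    linear_combination h
  have h2 := (FaithfulSMul.algebraMap_injective (AA W0 k) (KK W0 k)) (h1.trans (map_zero _).symm)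
  have h3 : (C (algebraMap F k W0.a₁) * X + C (algebraMap F k W0.a₃) : k[X]) •
      (1 : AA W0 k) + (2 : k[X]) • CoordinateRing.mk (W0.baseChange k).toAffine Y = 0 := by
    rw [CoordinateRing.smul, CoordinateRing.smul]
    simp only [map_add, map_mul, map_ofNat, mul_one]
    have e : ∀ a : k, CoordinateRing.mk (W0.baseChange k).toAffine (C (C a)) =
        algebraMap k (AA W0 k) a := fun a => rfl
    rw [e, e]
    unfold xA yA at h2
    linear_combination h2
  obtain ⟨e1, e2⟩ := CoordinateRing.smul_basis_eq_zero h3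
  have ha1 : algebraMap F k W0.a₁ = 0 := by
    have := congrArg (fun q : k[X] => q.coeff 1) e1
    simpa using this
  have ha3 : algebraMap F k W0.a₃ = 0 := by
    have := congrArg (fun q : k[X] => q.coeff 0) e1
    simpa using this
  have h2k : (2 : k) = 0 := by
    have := congrArg (fun q : k[X] => q.coeff 0) e2
    simpa using this
  have hΔ : IsUnit ((W0.toAffine⁄k) : Affine k).Δ := (W0.toAffine⁄k).isUnit_Δ
  apply hΔ.ne_zero
  have c1 : ((W0.toAffine⁄k) : Affine k).a₁ = algebraMap F k W0.a₁ := rfl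
  have c3 : ((W0.toAffine⁄k) : Affine k).a₃ = algebraMap F k W0.a₃ := rfl
  rw [WeierstrassCurve.Δ, WeierstrassCurve.b₂, WeierstrassCurve.b₄, WeierstrassCurve.b₆,
    WeierstrassCurve.b₈, c1, c3, ha1, ha3]
  linear_combination (-(2 * ((W0.toAffine⁄k) : Affine k).a₂) ^ 2 *
      (4 * ((W0.toAffine⁄k) : Affine k).a₂ * ((W0.toAffine⁄k) : Affine k).a₆ -
        ((W0.toAffine⁄k) : Affine k).a₄ ^ 2) * 2 -
    4 * (2 * ((W0.toAffine⁄k) : Affine k).a₄) ^ 3 -
    27 * 8 * ((W0.toAffine⁄k) : Affine k).a₆ ^ 2 +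
    9 * 2 * ((W0.toAffine⁄k) : Affine k).a₂ * (2 * ((W0.toAffine⁄k) : Affine k).a₄) *
      (4 * ((W0.toAffine⁄k) : Affine k).a₆)) * h2k

omit [W0.IsElliptic] in
theorem algebraMap_poly_KK (q : k[X]) : algebraMap k[X] (KK W0 k) q = aeval (xK W0 k) q := by
  rw [aeval_xK, ← IsScalarTower.algebraMap_apply]

section Fibre

variable {W0 k}
variable {Ω : Type*} [Field Ω] [Algebra F Ω] [Algebra k Ω] [IsScalarTower F k Ω]
  [DecidableEq k] [DecidableEq Ω] [DecidableEq (KK W0 k)]
  (ι0 : KK W0 k →ₐ[k] Ω)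
  {φK : ((W0.toAffine⁄(KK W0 k)) : Affine (KK W0 k)).Point →+
    ((W0.toAffine⁄(KK W0 k)) : Affine (KK W0 k)).Point}
  {φΩ : ((W0.toAffine⁄Ω) : Affine Ω).Point →+ ((W0.toAffine⁄Ω) : Affine Ω).Point}
  {φk : ((W0.toAffine⁄k) : Affine k).Point →+ ((W0.toAffine⁄k) : Affine k).Point}
  (p : Fin 2 → k[X])

/-- The image of the generic point in `E(Ω)`. -/
def Pg : ((W0.toAffine⁄Ω) : Affine Ω).Point :=
  Point.map (W' := W0.toAffine) ι0 (genericPoint W0 k)

omit [DecidableEq k] in
theorem Pg_eq : Pg ι0 = Point.some (ι0 (xK W0 k)) (ι0 (yK W0 k))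
    ((W0.toAffine.baseChange_nonsingular ι0.injective ..).mpr (nonsingular_generic W0 k)) := rfl

omit [DecidableEq k] in
theorem xRep_Pg : (Pg ι0).xRep = ![ι0 (xK W0 k), 1] := by
  rw [Pg_eq, Point.xRep_some]

omit [DecidableEq k] in
theorem Pg_ne_zero : Pg ι0 ≠ 0 := by
  rw [Pg_eq]
  exact Point.some_ne_zero _

omit [DecidableEq k] in
theorem Pg_ne_neg : Pg ι0 ≠ -Pg ι0 := by
  rw [Pg_eq, Point.neg_some]
  intro h
  rw [Point.some.injEq] at h
  have h2 := h.2
  rw [W0.toAffine.baseChange_negY ι0] at h2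
  exact yK_ne_negY W0 k (ι0.injective h2)

omit [W0.IsElliptic] [DecidableEq k] [DecidableEq Ω] [DecidableEq (KK W0 k)] [Algebra F Ω]
  [IsScalarTower F k Ω] in
/-- The image of `x` in `Ω` is not in `k`. -/
theorem ι0_xK_not_mem_range : ι0 (xK W0 k) ∉ Set.range (algebraMap k Ω) := by
  rintro ⟨a, ha⟩
  have h1 : xK W0 k = algebraMap k (KK W0 k) a := by
    apply ι0.injective
    show ι0 (xK W0 k) = ι0 (algebraMap k (KK W0 k) a)
    rw [← ha, AlgHom.commutes]
  have h2 : aeval (xK W0 k) (X - C a : k[X]) = 0 := by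
    rw [map_sub, aeval_X, aeval_C, h1, sub_self]
  have h3 := (transcendental_iff.mp (transcendental_xK W0 k)) _ h2
  exact X_sub_C_ne_zero a h3

/-- The representing pair of `φK (generic point)`. -/
def RepBy (φK : ((W0.toAffine⁄(KK W0 k)) : Affine (KK W0 k)).Point →+
    ((W0.toAffine⁄(KK W0 k)) : Affine (KK W0 k)).Point) (p : Fin 2 → k[X]) : Prop :=
  ∃ c : KK W0 k, c ≠ 0 ∧
    (φK (genericPoint W0 k)).xRep = c • fun i => algebraMap k[X] (KK W0 k) (p i)

variable {p}

omit [DecidableEq k] in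
/-- `xRep` of `φΩ R` at a point `R` with transcendental `x`-coordinate. -/
theorem exists_xRep_eq (hK : NatK φK φΩ) (hp : RepBy φK p) {ρ σ : Ω}
    (h : ((W0.toAffine⁄Ω) : Affine Ω).Nonsingular ρ σ) (hρ : Transcendental k ρ) :
    ∃ c' : Ω, c' ≠ 0 ∧ (φΩ (Point.some ρ σ h)).xRep = c' • fun i => aeval ρ (p i) := by
  obtain ⟨c, hc, hrep⟩ := hp
  refine ⟨evHom h.1 hρ c, (_root_.map_ne_zero _).mpr hc, ?_⟩
  rw [map_eq_map_evHom hK h hρ, xRep_map, hrep]
  funext i
  simp only [Pi.smul_apply, smul_eq_mul, map_mul]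
  rw [algebraMap_poly_KK, evHom_aeval_xK]

omit [W0.IsElliptic] [DecidableEq k] [DecidableEq Ω] [DecidableEq (KK W0 k)] [Algebra F Ω]
  [IsScalarTower F k Ω] in
theorem aeval_ne_zero_of_eq (hcop : IsCoprime (p 0) (p 1)) {ρ : Ω}
    (hroot : aeval ρ (p 0) = ι0 (xK W0 k) * aeval ρ (p 1)) : aeval ρ (p 1) ≠ 0 := by
  intro h1
  rw [h1, mul_zero] at hroot
  obtain ⟨a, b, hab⟩ := hcop
  have := congrArg (aeval ρ) hab
  rw [map_add, map_mul, map_mul, hroot, h1, mul_zero, mul_zero, add_zero, map_one] at this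
  exact zero_ne_one this

omit [DecidableEq k] in
/-- **(B)** At a point with transcendental `x`-coordinate `ρ`: `φΩ R = ± Pg` iff `ρ` is a root. -/
theorem map_eq_or_eq_neg_iff (hK : NatK φK φΩ) (hp : RepBy φK p)
    (hcop : IsCoprime (p 0) (p 1)) {ρ σ : Ω}
    (h : ((W0.toAffine⁄Ω) : Affine Ω).Nonsingular ρ σ) (hρ : Transcendental k ρ) :
    (φΩ (Point.some ρ σ h) = Pg ι0 ∨ φΩ (Point.some ρ σ h) = -Pg ι0) ↔
      aeval ρ (p 0) = ι0 (xK W0 k) * aeval ρ (p 1) := by
  obtain ⟨c', hc', hx⟩ := exists_xRep_eq hK hp h hρ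
  constructor
  · intro hor
    have hx2 : (φΩ (Point.some ρ σ h)).xRep = ![ι0 (xK W0 k), 1] := by
      rcases hor with hor | hor
      · rw [hor, xRep_Pg]
      · rw [hor, Point.xRep_neg, xRep_Pg]
    rw [hx] at hx2
    have h0 := congrFun hx2 0
    have h1 := congrFun hx2 1
    simp only [Pi.smul_apply, smul_eq_mul, Matrix.cons_val_zero, Matrix.cons_val_one] at h0 h1
    have : aeval ρ (p 0) = c'⁻¹ * ι0 (xK W0 k) := by
      rw [← h0]; field_simp
    have h1' : aeval ρ (p 1) = c'⁻¹ := eq_inv_of_mul_eq_one_right h1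
    rw [this, h1']; ring
  · intro hroot
    have hw := aeval_ne_zero_of_eq ι0 hcop hroot
    apply eq_or_eq_neg_of_xRep (c := c' * aeval ρ (p 1)) _ (mul_ne_zero hc' hw)
    rw [hx, xRep_Pg]
    funext i
    fin_cases i
    · simp only [Fin.zero_eta, Fin.isValue, Pi.smul_apply, smul_eq_mul, Matrix.cons_val_zero]
      rw [hroot]; ring
    · simp

omit [DecidableEq k] in
theorem xRep_of_eq_or_eq_neg {A : ((W0.toAffine⁄Ω) : Affine Ω).Point}
    (hA : A = Pg ι0 ∨ A = -Pg ι0) : A.xRep = ![ι0 (xK W0 k), 1] := by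
  rcases hA with hA | hA
  · rw [hA, xRep_Pg]
  · rw [hA, Point.xRep_neg, xRep_Pg]

omit [W0.IsElliptic] [DecidableEq k] [DecidableEq Ω] [DecidableEq (KK W0 k)] [Algebra F Ω]
  [IsScalarTower F k Ω] in
/-- **(B4)** A root of the fibre equation is transcendental over `k`. -/
theorem transcendental_of_root [IsAlgClosed k] (hcop : IsCoprime (p 0) (p 1)) {ρ : Ω}
    (hroot : aeval ρ (p 0) = ι0 (xK W0 k) * aeval ρ (p 1)) : Transcendental k ρ := by
  apply transcendental_of_not_mem_range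
  rintro ⟨ρ₀, rfl⟩
  have hw := aeval_ne_zero_of_eq ι0 hcop hroot
  rw [aeval_algebraMap_apply_eq_algebraMap_eval] at hw
  rw [aeval_algebraMap_apply_eq_algebraMap_eval, aeval_algebraMap_apply_eq_algebraMap_eval]
    at hroot
  apply ι0_xK_not_mem_range (W0 := W0) ι0
  refine ⟨eval ρ₀ (p 0) / eval ρ₀ (p 1), ?_⟩
  rw [map_div₀, hroot, mul_div_assoc, div_self hw, mul_one]

/-- **(B3)** A point mapped to `± Pg` is affine with transcendental `x`-coordinate. -/
theorem exists_some_of_map_eq [IsAlgClosed k] (hk : Natk φΩ φk)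
    {R : ((W0.toAffine⁄Ω) : Affine Ω).Point} (hR : φΩ R = Pg ι0 ∨ φΩ R = -Pg ι0) :
    ∃ (ρ σ : Ω) (h : ((W0.toAffine⁄Ω) : Affine Ω).Nonsingular ρ σ),
      R = Point.some ρ σ h ∧ Transcendental k ρ := by
  have hx := xRep_of_eq_or_eq_neg ι0 hR
  rcases R with _ | ⟨ρ, σ, h⟩
  · exfalso
    rw [show (Point.zero : ((W0.toAffine⁄Ω) : Affine Ω).Point) = 0 from rfl, map_zero,
      Point.xRep_zero] at hx
    have := congrFun hx 1
    simp at this
  · refine ⟨ρ, σ, h, rfl, ?_⟩
    by_contra hρ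
    obtain ⟨R₀, hR₀⟩ := mem_range_constMap_of_mem_range h (mem_range_of_not_transcendental hρ)
    rw [← hR₀, ← hk R₀, xRep_map] at hx
    rcases hS : φk R₀ with _ | ⟨a, b, hab⟩
    · rw [hS, show (Point.zero : ((W0.toAffine⁄k) : Affine k).Point) = 0 from rfl,
        Point.xRep_zero] at hx
      have := congrFun hx 1
      simp at this
    · rw [hS, Point.xRep_some] at hx
      have := congrFun hx 0
      simp only [Matrix.cons_val_zero] at this
      exact ι0_xK_not_mem_range (W0 := W0) ι0 ⟨a, this⟩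

/-- The `x`-coordinate of a point of the fibre over `Pg` is a root. -/
theorem root_of_mem_fibre [IsAlgClosed k] (hK : NatK φK φΩ) (hk : Natk φΩ φk)
    (hp : RepBy φK p) (hcop : IsCoprime (p 0) (p 1))
    {R : ((W0.toAffine⁄Ω) : Affine Ω).Point} (hR : φΩ R = Pg ι0) :
    aeval (R.xRep 0) (p 0) = ι0 (xK W0 k) * aeval (R.xRep 0) (p 1) := by
  obtain ⟨ρ, σ, h, rfl, hρ⟩ := exists_some_of_map_eq ι0 hk (Or.inl hR)
  rw [Point.xRep_some]
  exact (map_eq_or_eq_neg_iff ι0 hK hp hcop h hρ).mp (Or.inl hR)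

/-- **(C)** The `x`-coordinate is a bijection from the fibre over `Pg` onto the set of roots. -/
theorem card_fibre_eq [IsAlgClosed k] [IsAlgClosed Ω] (hK : NatK φK φΩ) (hk : Natk φΩ φk)
    (hp : RepBy φK p) (hcop : IsCoprime (p 0) (p 1)) :
    Nat.card {R : ((W0.toAffine⁄Ω) : Affine Ω).Point // φΩ R = Pg ι0} =
      Nat.card {ρ : Ω // aeval ρ (p 0) = ι0 (xK W0 k) * aeval ρ (p 1)} := by
  refine Nat.card_congr (Equiv.ofBijective
    (fun R => ⟨R.1.xRep 0, root_of_mem_fibre ι0 hK hk hp hcop R.2⟩) ⟨?_, ?_⟩)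
  · rintro ⟨R, hR⟩ ⟨R', hR'⟩ hRR'
    have hx : R.xRep 0 = R'.xRep 0 := congrArg Subtype.val hRR'
    obtain ⟨ρ, σ, h, rfl, -⟩ := exists_some_of_map_eq ι0 hk (Or.inl hR)
    obtain ⟨ρ', σ', h', rfl, -⟩ := exists_some_of_map_eq ι0 hk (Or.inl hR')
    rw [Point.xRep_some, Point.xRep_some] at hx
    simp only [Matrix.cons_val_zero] at hx
    rcases Point.X_eq_iff.mp hx with hh | hh
    · exact Subtype.ext hh
    · exfalso
      rw [hh, map_neg, hR'] at hR
      exact Pg_ne_neg ι0 hR.symm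
  · rintro ⟨ρ, hroot⟩
    have hρ := transcendental_of_root ι0 hcop hroot
    obtain ⟨σ, hσ⟩ := Fermat.Agent.LR.RedFrob.exists_equation_of_isAlgClosed
      ((W0.toAffine⁄Ω) : Affine Ω) ρ
    have h : ((W0.toAffine⁄Ω) : Affine Ω).Nonsingular ρ σ := equation_iff_nonsingular.mp hσ
    rcases (map_eq_or_eq_neg_iff ι0 hK hp hcop h hρ).mpr hroot with hR | hR
    · refine ⟨⟨Point.some ρ σ h, hR⟩, Subtype.ext ?_⟩
      simp [Point.xRep_some]
    · refine ⟨⟨-Point.some ρ σ h, by rw [map_neg, hR, neg_neg]⟩, Subtype.ext ?_⟩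
      simp [Point.xRep_some]

omit [W0.IsElliptic] [DecidableEq k] [DecidableEq (KK W0 k)] in
/-- **(D)** A non-empty fibre of an additive map has the cardinality of the kernel. -/
theorem card_ker_eq_card_fibre {A : ((W0.toAffine⁄Ω) : Affine Ω).Point}
    (hA : ∃ R₀, φΩ R₀ = A) :
    Nat.card φΩ.ker = Nat.card {R : ((W0.toAffine⁄Ω) : Affine Ω).Point // φΩ R = A} := by
  obtain ⟨R₀, hR₀⟩ := hA
  refine Nat.card_congr
    { toFun := fun P => ⟨P.1 + R₀, by
        rw [map_add, (AddMonoidHom.mem_ker).mp P.2, zero_add, hR₀]⟩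
      invFun := fun R => ⟨R.1 - R₀, by
        rw [AddMonoidHom.mem_ker, map_sub, R.2, hR₀, sub_self]⟩
      left_inv := fun P => Subtype.ext (add_sub_cancel_right _ _)
      right_inv := fun R => Subtype.ext (sub_add_cancel _ _) }

/-- **HW6, main count**: the kernel of `φk` has as many elements as the fibre equation
`p 0 (ρ) = x · p 1 (ρ)` has roots in `Ω`. -/
theorem card_ker_eq_card_roots [IsAlgClosed k] [IsAlgClosed Ω] (hK : NatK φK φΩ)
    (hk : Natk φΩ φk) (hp : RepBy φK p) (hcop : IsCoprime (p 0) (p 1))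
    (hroot : ∃ ρ : Ω, aeval ρ (p 0) = ι0 (xK W0 k) * aeval ρ (p 1)) :
    Nat.card φk.ker = Nat.card {ρ : Ω // aeval ρ (p 0) = ι0 (xK W0 k) * aeval ρ (p 1)} := by
  -- `φK (generic point) ≠ 0`
  have hQ : φK (genericPoint W0 k) ≠ 0 := by
    intro h0
    obtain ⟨c, hc, hrep⟩ := hp
    rw [h0, Point.xRep_zero] at hrep
    have h1 := congrFun hrep 1
    simp only [Matrix.cons_val_one, Matrix.cons_val_fin_one, Pi.smul_apply, smul_eq_mul] at h1
    have h2 : algebraMap k[X] (KK W0 k) (p 1) = 0 := by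
      rcases mul_eq_zero.mp h1.symm with h | h
      · exact absurd h hc
      · exact h
    have hinj : Function.Injective (algebraMap k[X] (KK W0 k)) := by
      rw [IsScalarTower.algebraMap_eq k[X] (AA W0 k) (KK W0 k)]
      exact (FaithfulSMul.algebraMap_injective (AA W0 k) (KK W0 k)).comp
        (FaithfulSMul.algebraMap_injective k[X] (AA W0 k))
    have h3 : p 1 = 0 := hinj (h2.trans (map_zero _).symm)
    obtain ⟨ρ, hρ⟩ := hroot
    have := aeval_ne_zero_of_eq ι0 hcop hρ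
    rw [h3, map_zero] at this
    exact this rfl
  rw [card_ker_eq hK hk hQ]
  -- the fibre over `Pg` is non-empty
  obtain ⟨ρ, hρroot⟩ := hroot
  have hρ := transcendental_of_root ι0 hcop hρroot
  obtain ⟨σ, hσ⟩ := Fermat.Agent.LR.RedFrob.exists_equation_of_isAlgClosed
    ((W0.toAffine⁄Ω) : Affine Ω) ρ
  have h : ((W0.toAffine⁄Ω) : Affine Ω).Nonsingular ρ σ := equation_iff_nonsingular.mp hσ
  have hex : ∃ R₀, φΩ R₀ = Pg ι0 := by
    rcases (map_eq_or_eq_neg_iff ι0 hK hp hcop h hρ).mpr hρroot with hR | hR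
    · exact ⟨_, hR⟩
    · exact ⟨-Point.some ρ σ h, by rw [map_neg, hR, neg_neg]⟩
  rw [card_ker_eq_card_fibre hex, card_fibre_eq ι0 hK hk hp hcop]

end Fibre

end Fermat.Agent.EC.HW.FibreGeneric
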