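import Mathlib
import Fermat.Agent.EC.HW.FibreGeneric

/-!
# Program E (S58), block HW, node HW6: the endomorphisms `π - n` are natural

`F` a finite field, `W0` an elliptic curve over `F`.  For every field `L` over `F` let
`frobSub F L W0 n := frobPt F L W0 - n • id` (`frobPt` = `LR/RedFrobCount`'s Frobenius on points).
These endomorphisms commute with `Point.map f` for every `F`-algebra homomorphism `f`, hence
satisfy `NatK`, `Natk` of `FibreKer`.  Consequence (`card_ker_frobSub_eq_card_roots`): the kernel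
count of `FibreGeneric.card_ker_eq_card_roots` for `φ = π - n`.
-/

set_option autoImplicit false

noncomputable section

namespace Fermat.Agent.EC.HW.FibreFrob

open WeierstrassCurve WeierstrassCurve.Affine Polynomial
open Fermat.Agent.EC.HW.GenericPoint Fermat.Agent.EC.HW.FibreKer
  Fermat.Agent.EC.HW.FibreGeneric Fermat.Agent.LR.RedFrob

variable (F : Type*) [Field F] [Fintype F] (W0 : WeierstrassCurve F)

/-- The endomorphism `π - n` of the group of `L`-points. -/
def frobSub (L : Type*) [Field L] [Algebra F L] [DecidableEq L] (n : ℤ) :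
    ((W0.toAffine⁄L) : Affine L).Point →+ ((W0.toAffine⁄L) : Affine L).Point :=
  frobPt F L W0 - n • AddMonoidHom.id _

theorem frobSub_apply (L : Type*) [Field L] [Algebra F L] [DecidableEq L] (n : ℤ)
    (P : ((W0.toAffine⁄L) : Affine L).Point) :
    frobSub F W0 L n P = frobPt F L W0 P - n • P := by
  simp [frobSub]

/-- The Frobenius commutes with `Point.map`. -/
theorem map_frobPt {S L L' : Type*} [CommRing S] [Field L] [Field L'] [Algebra F S] [Algebra F L]
    [Algebra S L] [IsScalarTower F S L] [Algebra F L'] [Algebra S L'] [IsScalarTower F S L']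
    [DecidableEq L] [DecidableEq L'] (f : L →ₐ[S] L') (P : ((W0.toAffine⁄L) : Affine L).Point) :
    Point.map (W' := W0.toAffine) f (frobPt F L W0 P) =
      frobPt F L' W0 (Point.map (W' := W0.toAffine) f P) := by
  rcases P with _ | ⟨x, y, h⟩
  · rfl
  · unfold frobPt
    rw [Point.map_some, Point.map_some, Point.map_some, Point.map_some, Point.some.injEq]
    simp only [FiniteField.coe_frobeniusAlgHom, map_pow, and_self]

/-- `π - n` commutes with `Point.map`. -/
theorem map_frobSub {S L L' : Type*} [CommRing S] [Field L] [Field L'] [Algebra F S] [Algebra F L]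
    [Algebra S L] [IsScalarTower F S L] [Algebra F L'] [Algebra S L'] [IsScalarTower F S L']
    [DecidableEq L] [DecidableEq L'] (f : L →ₐ[S] L') (n : ℤ)
    (P : ((W0.toAffine⁄L) : Affine L).Point) :
    Point.map (W' := W0.toAffine) f (frobSub F W0 L n P) =
      frobSub F W0 L' n (Point.map (W' := W0.toAffine) f P) := by
  rw [frobSub_apply, frobSub_apply, map_sub, map_zsmul, map_frobPt]

variable [W0.IsElliptic] (k : Type*) [Field k] [Algebra F k] {Ω : Type*} [Field Ω] [Algebra F Ω]
  [Algebra k Ω] [IsScalarTower F k Ω] [DecidableEq k] [DecidableEq Ω] [DecidableEq (KK W0 k)]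

omit [W0.IsElliptic] [DecidableEq k] in
theorem natK_frobSub (n : ℤ) :
    NatK (W0 := W0) (k := k) (Ω := Ω) (frobSub F W0 (KK W0 k) n) (frobSub F W0 Ω n) :=
  fun f P => map_frobSub F W0 f n P

omit [W0.IsElliptic] [DecidableEq (KK W0 k)] in
theorem natk_frobSub (n : ℤ) :
    Natk (W0 := W0) (k := k) (Ω := Ω) (frobSub F W0 Ω n) (frobSub F W0 k n) :=
  fun P => map_frobSub F W0 (Algebra.ofId k Ω) n P

/-- **HW6 for `π - n`**: if the `x`-coordinate of `(π - n)(generic point)` is represented by the
coprime pair `(p 0, p 1)`, then `#ker (π - n)` on `E(k)` is the number of roots in `Ω` of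
`p 0 (ρ) = x · p 1 (ρ)`. -/
theorem card_ker_frobSub_eq_card_roots [IsAlgClosed k] [IsAlgClosed Ω] (ι0 : KK W0 k →ₐ[k] Ω)
    (n : ℤ) {p : Fin 2 → k[X]} (hp : RepBy (frobSub F W0 (KK W0 k) n) p)
    (hcop : IsCoprime (p 0) (p 1))
    (hroot : ∃ ρ : Ω, aeval ρ (p 0) = ι0 (xK W0 k) * aeval ρ (p 1)) :
    Nat.card (frobSub F W0 k n).ker =
      Nat.card {ρ : Ω // aeval ρ (p 0) = ι0 (xK W0 k) * aeval ρ (p 1)} :=
  card_ker_eq_card_roots ι0 (natK_frobSub F W0 k n) (natk_frobSub F W0 k n) hp hcop hroot

end Fermat.Agent.EC.HW.FibreFrob
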