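import Mathlib

/-!
# Program E (S58), node (HW6-F): the generic fibre of a rational function, counted without
multiplicity

`k` a field of exponential characteristic `l`, `u w : k[X]` coprime, `d = max (deg u) (deg w) ≥ 1`,
`L ⊇ k` algebraically closed and `c : L` transcendental over `k`. Then the number of `ρ : L` with
`u(ρ) = c · w(ρ)` is `d / l ^ m` for some `m`:

* `card_roots_mul_pow_eq` : `∃ m, Nat.card {ρ // aeval ρ u = c * aeval ρ w} * l ^ m = d`;
* `finite_roots`, `exists_root`.

Proof by strong induction on `d`: if the Wronskian `u' w - u w'` is nonzero, `u - c w` is separable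
over `L` (a common root of it and of its derivative is algebraic over `k`, and then so is `c`);
otherwise `u' = w' = 0`, hence `u = expand l u₁`, `w = expand l w₁` and the Frobenius of `L`
identifies the two root sets.
-/

set_option autoImplicit false

namespace Fermat.Agent.EC.HW.FibreRoots

open Polynomial

variable {k L : Type*} [Field k] [Field L] [Algebra k L]

/-- The Wronskian of a pair of polynomials. -/
noncomputable def wr (u w : k[X]) : k[X] := derivative u * w - u * derivative w

/-- The set of solutions `ρ` of `u(ρ) = c w(ρ)`. -/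
def Sol (u w : k[X]) (c : L) : Type _ := {ρ : L // aeval ρ u = c * aeval ρ w}

/-- The fibre polynomial over `L`. -/
noncomputable def fib (u w : k[X]) (c : L) : L[X] :=
  u.map (algebraMap k L) - C c * w.map (algebraMap k L)

theorem eval_fib (u w : k[X]) (c ρ : L) :
    (fib u w c).eval ρ = aeval ρ u - c * aeval ρ w := by
  rw [fib, eval_sub, eval_mul, eval_C, eval_map_algebraMap, eval_map_algebraMap]

theorem isIntegral_aeval {ρ : L} (hρ : IsIntegral k ρ) (p : k[X]) : IsIntegral k (aeval ρ p) := by
  have h1 : Algebra.adjoin k {ρ} ≤ integralClosure k L :=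
    Algebra.adjoin_le (Set.singleton_subset_iff.mpr hρ)
  exact h1 (aeval_mem_adjoin_singleton k ρ)

/-- No common root of coprime polynomials. -/
theorem not_both_zero {u w : k[X]} (hcop : IsCoprime u w) (ρ : L) :
    ¬ (aeval ρ u = 0 ∧ aeval ρ w = 0) := by
  rintro ⟨h1, h2⟩
  obtain ⟨a, b, hab⟩ := hcop
  have := congrArg (aeval ρ) hab
  rw [map_add, map_mul, map_mul, h1, h2, mul_zero, mul_zero, add_zero, map_one] at this
  exact zero_ne_one this

/-- A solution for a transcendental `c` which is algebraic over `k` does not exist. -/
theorem not_isIntegral_of_sol {u w : k[X]} (hcop : IsCoprime u w) {c : L}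
    (hc : Transcendental k c) {ρ : L} (h : aeval ρ u = c * aeval ρ w) : ¬ IsIntegral k ρ := by
  intro hρ
  apply hc
  have hw : aeval ρ w ≠ 0 := by
    intro hw
    rw [hw, mul_zero] at h
    exact not_both_zero hcop ρ ⟨h, hw⟩
  have hceq : c = aeval ρ u * (aeval ρ w)⁻¹ := by
    rw [h, mul_assoc, mul_inv_cancel₀ hw, mul_one]
  rw [hceq]
  exact ((isIntegral_aeval hρ u).mul (isIntegral_aeval hρ w).inv).isAlgebraic

/-- The degree of the fibre polynomial. -/
theorem natDegree_fib {u w : k[X]} {c : L} (hc : Transcendental k c)
    (hd : 0 < max u.natDegree w.natDegree) :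
    (fib u w c).natDegree = max u.natDegree w.natDegree := by
  have hinj : Function.Injective (algebraMap k L) := (algebraMap k L).injective
  have hc0 : c ≠ 0 := by
    rintro rfl
    exact hc (isAlgebraic_zero)
  have hU : (u.map (algebraMap k L)).natDegree = u.natDegree := natDegree_map_eq_of_injective hinj u
  have hW : (C c * w.map (algebraMap k L)).natDegree = w.natDegree := by
    rw [natDegree_C_mul hc0, natDegree_map_eq_of_injective hinj w]
  rcases lt_trichotomy u.natDegree w.natDegree with hlt | heq | hgt
  · rw [max_eq_right hlt.le, fib, natDegree_sub_eq_right_of_natDegree_lt (by rw [hU, hW]; exact hlt),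
      hW]
  · rw [heq, max_self]
    rw [heq, max_self] at hd
    apply natDegree_eq_of_le_of_coeff_ne_zero
    · rw [fib]
      exact (natDegree_sub_le _ _).trans (by rw [hU, hW, heq, max_self])
    · rw [fib, coeff_sub, coeff_C_mul, coeff_map, coeff_map]
      intro h0
      apply hc
      have hwlc : w.coeff w.natDegree ≠ 0 := by
        rw [coeff_natDegree]
        exact leadingCoeff_ne_zero.mpr (by rintro rfl; simp at hd)
      have hwlc' : algebraMap k L (w.coeff w.natDegree) ≠ 0 := (_root_.map_ne_zero _).mpr hwlc
      have hceq : c = algebraMap k L (u.coeff w.natDegree) * (algebraMap k L (w.coeff w.natDegree))⁻¹ := by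
        field_simp
        linear_combination -h0
      rw [hceq, ← map_inv₀, ← map_mul]
      exact isAlgebraic_algebraMap _
  · rw [max_eq_left hgt.le, fib, natDegree_sub_eq_left_of_natDegree_lt (by rw [hU, hW]; exact hgt),
      hU]

/-- A common root of the fibre polynomial and of its derivative is a root of the Wronskian. -/
theorem aeval_wr_eq_zero {u w : k[X]} {c ρ : L} (h0 : (fib u w c).eval ρ = 0)
    (h1 : (derivative (fib u w c)).eval ρ = 0) : aeval ρ (wr u w) = 0 := by
  rw [eval_fib] at h0
  have e1 : aeval ρ (derivative u) = c * aeval ρ (derivative w) := by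
    simp only [fib, derivative_sub, derivative_mul, derivative_C, zero_mul, zero_add, eval_sub,
      eval_mul, eval_C, derivative_map, eval_map_algebraMap] at h1
    linear_combination h1
  have e0 : aeval ρ u = c * aeval ρ w := by linear_combination h0
  simp only [wr, map_sub, map_mul, e0, e1]
  ring

variable [IsAlgClosed L]

/-- The separable case: the Wronskian is nonzero. -/
theorem card_sol_of_wr_ne_zero {u w : k[X]} (hcop : IsCoprime u w)
    (hd : 0 < max u.natDegree w.natDegree) {c : L} (hc : Transcendental k c)
    (hwr : wr u w ≠ 0) : Nat.card (Sol u w c) = max u.natDegree w.natDegree := by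
  have hsep : (fib u w c).Separable := by
    rw [separable_def, isCoprime_iff_aeval_ne_zero_of_isAlgClosed (k := L) L]
    intro ρ
    by_contra hcon
    push Not at hcon
    obtain ⟨h0, h1⟩ := hcon
    rw [coe_aeval_eq_eval] at h0 h1
    have hw0 := aeval_wr_eq_zero h0 h1
    have hsol : aeval ρ u = c * aeval ρ w := by
      rw [eval_fib] at h0; linear_combination h0
    exact not_isIntegral_of_sol hcop hc hsol (isAlgebraic_iff_isIntegral.mp ⟨wr u w, hwr, hw0⟩)
  have hf0 : fib u w c ≠ 0 := by
    intro h
    have := natDegree_fib (u := u) (w := w) hc hd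
    rw [h, natDegree_zero] at this
    omega
  have e : Sol u w c ≃ (fib u w c).rootSet L :=
    { toFun := fun ρ => ⟨ρ.1, by
        rw [mem_rootSet, coe_aeval_eq_eval, eval_fib, ρ.2, sub_self]; exact ⟨hf0, rfl⟩⟩
      invFun := fun ρ => ⟨ρ.1, by
        have := ρ.2
        rw [mem_rootSet, coe_aeval_eq_eval, eval_fib] at this
        linear_combination this.2⟩
      left_inv := fun ρ => rfl
      right_inv := fun ρ => rfl }
  rw [Nat.card_congr e, Nat.card_eq_fintype_card,
    card_rootSet_eq_natDegree hsep (IsAlgClosed.splits _), natDegree_fib hc hd]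

/-- The inseparable step: if the Wronskian vanishes, both polynomials have zero derivative. -/
theorem derivative_eq_zero_of_wr {u w : k[X]} (hcop : IsCoprime u w) (hwr : wr u w = 0) :
    derivative u = 0 ∧ derivative w = 0 := by
  have h : derivative u * w = u * derivative w := sub_eq_zero.mp hwr
  constructor
  · by_contra hne
    have hu0 : u ≠ 0 := by rintro rfl; simp at hne
    have hdvd : u ∣ derivative u := by
      have : u ∣ derivative u * w := ⟨derivative w, h⟩
      exact hcop.dvd_of_dvd_mul_right this
    exact hne (eq_zero_of_dvd_of_degree_lt hdvd (degree_derivative_lt hu0))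
  · by_contra hne
    have hw0 : w ≠ 0 := by rintro rfl; simp at hne
    have hdvd : w ∣ derivative w := by
      have : w ∣ u * derivative w := ⟨derivative u, by rw [← h, mul_comm]⟩
      exact hcop.symm.dvd_of_dvd_mul_left this
    exact hne (eq_zero_of_dvd_of_degree_lt hdvd (degree_derivative_lt hw0))

/-- **The generic fibre**: `#{ρ | u(ρ) = c w(ρ)} · l ^ m = max (deg u) (deg w)`. -/
theorem card_roots_mul_pow_eq (l : ℕ) [ExpChar k l] (u w : k[X]) (hcop : IsCoprime u w)
    (hd : 0 < max u.natDegree w.natDegree) (c : L) (hc : Transcendental k c) :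
    ∃ m : ℕ, Nat.card {ρ : L // aeval ρ u = c * aeval ρ w} * l ^ m =
      max u.natDegree w.natDegree := by
  induction hn : max u.natDegree w.natDegree using Nat.strong_induction_on generalizing u w with
  | _ d ih =>
  by_cases hwr : wr u w = 0
  · obtain ⟨hu', hw'⟩ := derivative_eq_zero_of_wr hcop hwr
    obtain @⟨hcz⟩ | @⟨_, hprime, hchar⟩ := ‹ExpChar k l›
    · -- characteristic zero: both constant, impossible
      exfalso
      have h1 := derivative_eq_zero.mp hu'
      have h2 := derivative_eq_zero.mp hw'
      rw [h1, h2] at hd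
      simp at hd
    · have hl0 : l ≠ 0 := hprime.ne_zero
      have hU : expand k l (contract l u) = u := expand_contract l hu' hl0
      have hW : expand k l (contract l w) = w := expand_contract l hw' hl0
      set u₁ := contract l u with hu₁
      set w₁ := contract l w with hw₁
      have hdU : u.natDegree = u₁.natDegree * l := by rw [← hU, natDegree_expand]
      have hdW : w.natDegree = w₁.natDegree * l := by rw [← hW, natDegree_expand]
      have hmax : max u.natDegree w.natDegree = max u₁.natDegree w₁.natDegree * l := by
        rw [hdU, hdW, max_mul_mul_right]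
      have hd₁ : 0 < max u₁.natDegree w₁.natDegree := by
        rw [hmax] at hd
        exact Nat.pos_of_mul_pos_right hd
      have hcop₁ : IsCoprime u₁ w₁ := by
        rw [← isCoprime_expand (R := k) hl0, hU, hW]
        exact hcop
      have hlt : max u₁.natDegree w₁.natDegree < d := by
        rw [← hn, hmax]
        exact lt_mul_of_one_lt_right hd₁ hprime.one_lt
      obtain ⟨m₁, hm₁⟩ := ih _ hlt u₁ w₁ hcop₁ hd₁ rfl
      -- the Frobenius of `L` identifies the two solution sets
      have : CharP L l := charP_of_injective_algebraMap (algebraMap k L).injective l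
      have : Fact l.Prime := ⟨hprime⟩
      have hbij : Function.Bijective (frobenius L l) := bijective_frobenius L l
      have key : ∀ x : L, aeval x u = c * aeval x w ↔
          aeval (x ^ l) u₁ = c * aeval (x ^ l) w₁ := by
        intro x
        rw [← expand_aeval, ← expand_aeval, hU, hW]
      have e : {ρ : L // aeval ρ u = c * aeval ρ w} ≃ {ρ : L // aeval ρ u₁ = c * aeval ρ w₁} :=
        Equiv.subtypeEquiv (Equiv.ofBijective _ hbij) (fun x => by
          rw [Equiv.ofBijective_apply, frobenius_def]; exact key x)
      refine ⟨m₁ + 1, ?_⟩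
      rw [Nat.card_congr e, pow_succ, ← mul_assoc, hm₁, ← hn, hmax]
  · refine ⟨0, ?_⟩
    rw [pow_zero, mul_one, ← hn]
    exact card_sol_of_wr_ne_zero hcop hd hc hwr

/-- The set of solutions is finite. -/
theorem finite_roots (l : ℕ) [ExpChar k l] (u w : k[X]) (hcop : IsCoprime u w)
    (hd : 0 < max u.natDegree w.natDegree) (c : L) (hc : Transcendental k c) :
    Finite {ρ : L // aeval ρ u = c * aeval ρ w} := by
  obtain ⟨m, hm⟩ := card_roots_mul_pow_eq l u w hcop hd c hc
  apply Nat.finite_of_card_ne_zero
  intro h0
  rw [h0, zero_mul] at hm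
  omega

/-- There is a solution. -/
theorem exists_root (u w : k[X]) (hd : 0 < max u.natDegree w.natDegree) (c : L)
    (hc : Transcendental k c) : ∃ ρ : L, aeval ρ u = c * aeval ρ w := by
  have hdeg : (fib u w c).degree ≠ 0 := by
    have hn := natDegree_fib (u := u) (w := w) hc hd
    have hf0 : fib u w c ≠ 0 := by
      intro h; rw [h, natDegree_zero] at hn; omega
    rw [degree_eq_natDegree hf0, hn]
    exact_mod_cast hd.ne'
  obtain ⟨ρ, hρ⟩ := IsAlgClosed.exists_root _ hdeg
  refine ⟨ρ, ?_⟩
  rw [IsRoot.def, eval_fib] at hρ
  linear_combination hρ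

end Fermat.Agent.EC.HW.FibreRoots
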