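import Mathlib
import Fermat.Agent.EC.HW.FibreFrob
import Fermat.Agent.EC.HW.FibreRoots
import Fermat.Agent.EC.HW.FibreConst

/-!
# Program E (S58), block HW, node HW6: the generic-fibre count, final forms

* `card_ker_mul_pow_eq` (abstract): for a natural family `φk, φK, φΩ` of additive endomorphisms
  such that the `x`-coordinate of `φK (generic point)` is represented by the coprime pair
  `(p 0, p 1)` of height `d ≥ 1` : `∃ m, Nat.card φk.ker * l ^ m = d` (`l` the exponential
  characteristic).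
* `card_eigen_mul_pow_eq` (`hfib` of `ExportSkel`): the same for `π - n`, without `Ω`:
  `∃ m, Nat.card (frobPt F k W0 - zsmulAddGroupHom n).ker * l ^ m = d`.
* `frob_eq_zsmul_of_const` (`hdeg` of `ExportSkel`): if `(π - n)(generic point)` is a constant
  point, then `π = n` on `E(k)`.
-/

set_option autoImplicit false

noncomputable section

namespace Fermat.Agent.EC.HW.FibreMain

open WeierstrassCurve WeierstrassCurve.Affine Polynomial
open Fermat.Agent.EC.HW.GenericPoint Fermat.Agent.EC.HW.FibreKer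
  Fermat.Agent.EC.HW.FibreGeneric Fermat.Agent.EC.HW.FibreFrob Fermat.Agent.LR.RedFrob

section Abstract

variable {F : Type*} [CommRing F] {W0 : WeierstrassCurve F} [W0.IsElliptic]
  {k : Type*} [Field k] [Algebra F k]
  {Ω : Type*} [Field Ω] [Algebra F Ω] [Algebra k Ω] [IsScalarTower F k Ω]
  [DecidableEq k] [DecidableEq Ω] [DecidableEq (KK W0 k)]
  {φK : ((W0.toAffine⁄(KK W0 k)) : Affine (KK W0 k)).Point →+
    ((W0.toAffine⁄(KK W0 k)) : Affine (KK W0 k)).Point}
  {φΩ : ((W0.toAffine⁄Ω) : Affine Ω).Point →+ ((W0.toAffine⁄Ω) : Affine Ω).Point}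
  {φk : ((W0.toAffine⁄k) : Affine k).Point →+ ((W0.toAffine⁄k) : Affine k).Point}

/-- **HW6 (abstract form).** -/
theorem card_ker_mul_pow_eq [IsAlgClosed k] [IsAlgClosed Ω] (l : ℕ) [ExpChar k l]
    (ι0 : KK W0 k →ₐ[k] Ω) (hK : NatK φK φΩ) (hk : Natk φΩ φk) {p : Fin 2 → k[X]}
    (hp : RepBy φK p) (hcop : IsCoprime (p 0) (p 1))
    (hd : 0 < max (p 0).natDegree (p 1).natDegree) :
    ∃ m : ℕ, Nat.card φk.ker * l ^ m = max (p 0).natDegree (p 1).natDegree := by
  have hc : Transcendental k (ι0 (xK W0 k)) :=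
    transcendental_of_not_mem_range (ι0_xK_not_mem_range (W0 := W0) ι0)
  have hroot := Fermat.Agent.EC.HW.FibreRoots.exists_root (p 0) (p 1) hd (ι0 (xK W0 k)) hc
  rw [card_ker_eq_card_roots ι0 hK hk hp hcop hroot]
  exact Fermat.Agent.EC.HW.FibreRoots.card_roots_mul_pow_eq l (p 0) (p 1) hcop hd _ hc

end Abstract

section Frobenius

variable (F : Type*) [Field F] [Fintype F] (W0 : WeierstrassCurve F) [W0.IsElliptic]
  (k : Type*) [Field k] [Algebra F k] [DecidableEq k] [DecidableEq (KK W0 k)]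

omit [W0.IsElliptic] [DecidableEq (KK W0 k)] in
theorem frobSub_eq (L : Type*) [Field L] [Algebra F L] [DecidableEq L] (n : ℤ) :
    frobSub F W0 L n = frobPt F L W0 - zsmulAddGroupHom n := by
  ext P
  simp [frobSub]

/-- **HW6 for `π - n`** (`hfib` of `ExportSkel`): if the `x`-coordinate of
`π P_gen - n • P_gen` is represented by the coprime pair `(p 0, p 1)` of height `d ≥ 1`, then
`#ker (π - n) * l ^ m = d` for some `m`. -/
theorem card_eigen_mul_pow_eq [IsAlgClosed k] (l : ℕ) [ExpChar k l] (n : ℤ) {p : Fin 2 → k[X]}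
    (hp : ∃ c : KK W0 k, c ≠ 0 ∧
      (frobPt F (KK W0 k) W0 (genericPoint W0 k) - n • genericPoint W0 k).xRep =
        c • fun i => algebraMap k[X] (KK W0 k) (p i))
    (hcop : IsCoprime (p 0) (p 1)) (hd : 0 < max (p 0).natDegree (p 1).natDegree) :
    ∃ m : ℕ, Nat.card (frobPt F k W0 - zsmulAddGroupHom n).ker * l ^ m =
      max (p 0).natDegree (p 1).natDegree := by
  classical
  rw [← frobSub_eq]
  have hp' : RepBy (frobSub F W0 (KK W0 k) n) p := by
    obtain ⟨c, hc, h⟩ := hp
    exact ⟨c, hc, by rw [frobSub_apply]; exact h⟩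
  exact card_ker_mul_pow_eq (Ω := AlgebraicClosure (KK W0 k)) l
    (IsScalarTower.toAlgHom k (KK W0 k) (AlgebraicClosure (KK W0 k)))
    (natK_frobSub F W0 k n) (natk_frobSub F W0 k n) hp' hcop hd

omit [W0.IsElliptic] [Fintype F] [DecidableEq k] [DecidableEq (KK W0 k)] in
theorem map_restrictScalars {L L' : Type*} [Field L] [Field L'] [Algebra F L] [Algebra k L]
    [IsScalarTower F k L] [Algebra F L'] [Algebra k L'] [IsScalarTower F k L'] [DecidableEq L]
    [DecidableEq L'] (f : L →ₐ[k] L') (P : ((W0.toAffine⁄L) : Affine L).Point) :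
    Point.map (W' := W0.toAffine) (f.restrictScalars F) P = Point.map (W' := W0.toAffine) f P := by
  cases P <;> rfl

/-- **The degenerate case** (`hdeg` of `ExportSkel`): if `π P_gen - n • P_gen` is a constant point
(e.g. `0`), then `π = n` on `E(k)`. -/
theorem frob_eq_zsmul_of_const [IsAlgClosed k] (n : ℤ)
    (hQ0 : ∃ C : ((W0.toAffine⁄k) : Affine k).Point,
      frobPt F (KK W0 k) W0 (genericPoint W0 k) - n • genericPoint W0 k =
        Point.map (W' := W0.toAffine) ((Algebra.ofId k (KK W0 k)).restrictScalars F) C)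
    (P : ((W0.toAffine⁄k) : Affine k).Point) : frobPt F k W0 P = n • P := by
  classical
  set Ω := AlgebraicClosure (KK W0 k) with hΩ
  set ι0 : KK W0 k →ₐ[k] Ω := IsScalarTower.toAlgHom k (KK W0 k) Ω with hι0
  have hg : ((W0.toAffine⁄Ω) : Affine Ω).Nonsingular (ι0 (xK W0 k)) (ι0 (yK W0 k)) :=
    (W0.toAffine.baseChange_nonsingular ι0.injective ..).mpr (nonsingular_generic W0 k)
  have hxg : Transcendental k (ι0 (xK W0 k)) :=
    transcendental_of_not_mem_range (ι0_xK_not_mem_range (W0 := W0) ι0)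
  have h0 := Fermat.Agent.EC.HW.FibreConst.ker_eq_top_of_const (K := KK W0 k) (L := Ω)
    W0.toAffine (frobSub F W0 k n) (frobSub F W0 (KK W0 k) n) (frobSub F W0 Ω n)
    (genericPoint W0 k)
    (fun f Q => map_frobSub F W0 (f.restrictScalars F) n Q)
    (fun Q => map_frobSub F W0 ((Algebra.ofId k Ω).restrictScalars F) n Q)
    (fun x y h hx => ⟨evHom h.1 hx, by
      rw [map_restrictScalars]; exact map_evHom_genericPoint h.1 hx h⟩)
    hg hxg (by
      obtain ⟨C, hC⟩ := hQ0
      exact ⟨C, by rw [frobSub_apply]; exact hC⟩) P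
  rw [frobSub_apply, sub_eq_zero] at h0
  exact h0

end Frobenius

end Fermat.Agent.EC.HW.FibreMain
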