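import Fermat.Agent.EC.HW1.Done
import Fermat.Agent.EC.HW.FibreMain
import Fermat.Agent.EC.HW.ExportSkel

/-!
# Program E (S58), block HW, node HW8-PLUG: the Hasse–Weil kernel count (★), assembled

`F` a finite field with `q` elements, `k` an algebraically closed extension, `W` a Weierstrass
curve over `F` with `Δ ≠ 0`, `π = frobPt F k W` the `q`-Frobenius on `E(k)`, `lam` a prime
invertible in `F`, `n : ℤ`:

  **(★)**  `(∃ P ≠ 0, lam • P = 0 ∧ π P = n • P) ↔ lam ∣ n² - (q + 1 - # W(F)) n + q`.

This is the final assembly of the block HW: `ExportSkel.export_star` (helper27) fed with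

* `d n := HW1.dHW F k W n = ptHeight (π Pgen - n • Pgen)` and its closed form
  `HW1.dHW_closed_form` (HW1 + HW-b, helper11; Fix(ι) = `k(x)` from `InvFixed`, helper10);
* `hfib` : `FibreMain.card_eigen_mul_pow_eq` (HW6, helper22 + helper7) at the primitive pair
  `HW1.exists_pair_dHW`;
* `hdeg` : `FibreMain.frob_eq_zsmul_of_const` (helper22 + helper7's `FibreConst`) at
  `HW1.const_of_dHW_eq_zero`;
* the calibration `a' = q + 1 - # W(F)` is inside `export_star` (`Calib`, helper10).

No restriction on the characteristic; general Weierstrass equations.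
-/

set_option autoImplicit false
set_option linter.style.haveILetI false
set_option linter.unusedSectionVars false

open WeierstrassCurve WeierstrassCurve.Affine Polynomial

namespace Fermat.Agent.EC.HW.Export

open Fermat.Agent.LR.RedFrob Fermat.Agent.EC.HWb Fermat.Agent.EC.HW.GenericPoint
  Fermat.Agent.EC.HW.FibreFrob Fermat.Agent.EC.HW.ExportSkel

variable (F k : Type*) [Field F] [Fintype F] [Field k] [Algebra F k] (W : WeierstrassCurve F)

/-- `W` is elliptic when its base change to `k` has `Δ ≠ 0`. -/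
theorem isElliptic_of_map (hΔ : (W.map (algebraMap F k)).Δ ≠ 0) : W.IsElliptic := by
  refine ⟨isUnit_iff_ne_zero.mpr fun h0 => hΔ ?_⟩
  rw [WeierstrassCurve.map_Δ, h0, map_zero]

/-- The characteristic of a finite field is a prime. -/
theorem exists_prime_charP : ∃ l : ℕ, l.Prime ∧ CharP F l := by
  obtain ⟨l, hl⟩ := CharP.exists F
  refine ⟨l, (CharP.char_is_prime_or_zero F l).resolve_right fun h0 => ?_, hl⟩
  subst h0
  haveI : CharZero F := CharP.charP_to_charZero F
  exact not_finite F

section Plug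

variable [W.IsElliptic] [DecidableEq (KK W k)] [DecidableEq k] [IsAlgClosed k]

/-- **`hfib`** of `ExportSkel.export_star` at `d := HW1.dHW`. -/
theorem hfib (l : ℕ) [ExpChar k l] (n : ℤ) (hpos : 0 < Fermat.Agent.EC.HW1.dHW F k W n) :
    ∃ m : ℕ, Nat.card (eigenSub F k W n) * l ^ m = Fermat.Agent.EC.HW1.dHW F k W n := by
  obtain ⟨p, hcop, hmax, hQ⟩ := Fermat.Agent.EC.HW1.exists_pair_dHW F k W n
  have hd : 0 < max (p 0).natDegree (p 1).natDegree := hmax ▸ hpos
  obtain ⟨m, hm⟩ := Fermat.Agent.EC.HW.FibreMain.card_eigen_mul_pow_eq F W k l n hQ hcop hd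
  exact ⟨m, by rw [← hmax]; exact hm⟩

/-- **`hdeg`** of `ExportSkel.export_star` at `d := HW1.dHW`. -/
theorem hdeg (n : ℤ) (h0 : Fermat.Agent.EC.HW1.dHW F k W n = 0)
    (P : (W.toAffine⁄k).Point) : frobPt F k W P = n • P := by
  refine Fermat.Agent.EC.HW.FibreMain.frob_eq_zsmul_of_const F W k n ?_ P
  rcases Fermat.Agent.EC.HW1.const_of_dHW_eq_zero F k W n h0 with h | ⟨a, b, h, hQ⟩
  · exact ⟨0, by rw [map_zero]; exact h⟩
  · have hk : (W.toAffine⁄k).Nonsingular a b :=
      (W.toAffine.baseChange_nonsingular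
        (f := (Algebra.ofId k (KK W k)).restrictScalars F)
        (algebraMap k (KK W k)).injective a b).mp h
    exact ⟨Point.some a b hk, by rw [Point.map_some]; exact hQ⟩

end Plug

/-- **HW8 = (★), the Hasse–Weil kernel count**, in the literal shape of the binder map #1384. -/
theorem star [DecidableEq k] [IsAlgClosed k] (hΔ : (W.map (algebraMap F k)).Δ ≠ 0) (n : ℤ)
    {lam : ℕ} (hlam : lam.Prime) (hlamF : (lam : F) ≠ 0) :
    (∃ P : (W.toAffine⁄k).Point, P ≠ 0 ∧ lam • P = 0 ∧ frobPt F k W P = n • P) ↔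
      (lam : ℤ) ∣ n ^ 2 - ((Fintype.card F : ℤ) + 1 - Nat.card W.toAffine.Point) * n
        + Fintype.card F := by
  classical
  haveI : W.IsElliptic := isElliptic_of_map F k W hΔ
  obtain ⟨l, hl, hchar⟩ := exists_prime_charP F
  haveI := hchar
  haveI : Fact l.Prime := ⟨hl⟩
  haveI : CharP k l := charP_of_injective_algebraMap (algebraMap F k).injective l
  haveI : ExpChar k l := ExpChar.prime hl
  have hlaml : lam ≠ l := by
    rintro rfl
    exact hlamF (CharP.cast_eq_zero F lam)
  have hlamk : (lam : k) ≠ 0 := by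
    intro h0
    apply hlamF
    have h1 : algebraMap F k (lam : F) = 0 := by rw [map_natCast]; exact h0
    exact (map_eq_zero_iff _ (algebraMap F k).injective).mp h1
  exact export_star F k W (Fermat.Agent.EC.HW1.dHW F k W)
    (fun n hpos => hfib F k W l n hpos) (fun n h0 P => hdeg F k W n h0 P) hΔ hl
    (Fermat.Agent.EC.HW1.dHW_closed_form F k W) n hlam hlaml hlamk

end Fermat.Agent.EC.HW.Export
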