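import Fermat.Agent.LR.RedFrobCount

/-!
# Program E (S58), block HW, node HW-e / HW7: calibration `a' = a` by the twist count

`F` a finite field with `q` elements, `k` an algebraically closed extension, `W` a Weierstrass
curve over `F` with `Δ ≠ 0`, `π` the `q`-Frobenius on the `k`-points.  The degrees
`d₁ = deg (π - 1)` and `d₋₁ = deg (π + 1)` (heights of `x ((π ∓ 1) P_gen)`) satisfy

* `d₁ + d₋₁ = 2 q + 2`  (the exact parallelogram law at `n = 0`, `d₀ = q`),
* `# ker (π - 1) ≤ d₁` and `# ker (π + 1) ≤ d₋₁`  (generic fibre count, inequality only).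

Together with the twist count `# ker (π - 1) + # ker (π + 1) = 2 q + 2` (on main:
`LR.RedFrob.natCard_antiSub_add`) this forces `d₁ = # W(F)` — no separability statement, no
derivation, no special case in characteristic `2` or `3`.
-/

set_option autoImplicit false

open WeierstrassCurve WeierstrassCurve.Affine

namespace Fermat.Agent.EC.HW.Calib

open Fermat.Agent.LR.RedFrob

variable (F k : Type*) [Field F] [Fintype F] [Field k] [Algebra F k] [DecidableEq k]
  [IsAlgClosed k] (W : WeierstrassCurve F)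

omit [IsAlgClosed k] in
/-- `# ker (π - 1) = # W(F)`. -/
theorem natCard_fixedSub_eq_card (hΔ : (W.map (algebraMap F k)).Δ ≠ 0) :
    Nat.card (fixedSub F k W) = Nat.card W.toAffine.Point := by
  rw [natCard_fixedSub F k W hΔ, natCard_point_eq F k W hΔ]

/-- The twist count in kernel form: `# ker (π - 1) + # ker (π + 1) = 2 q + 2`. -/
theorem natCard_fixedSub_add_antiSub (hΔ : (W.map (algebraMap F k)).Δ ≠ 0) :
    Nat.card (fixedSub F k W) + Nat.card (antiSub F k W) = 2 * Fintype.card F + 2 := by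
  rw [natCard_fixedSub_eq_card F k W hΔ, add_comm]
  exact natCard_antiSub_add F k W hΔ

/-- **HW-e (calibration).**  If `d₁ + d₋₁ = 2 q + 2`, `# ker (π - 1) ≤ d₁` and
`# ker (π + 1) ≤ d₋₁`, then `d₁ = # W(F)` and `d₋₁ = # ker (π + 1)`. -/
theorem d_one_eq_card (hΔ : (W.map (algebraMap F k)).Δ ≠ 0) {d1 dm1 : ℕ}
    (hsum : d1 + dm1 = 2 * Fintype.card F + 2)
    (h1 : Nat.card (fixedSub F k W) ≤ d1) (hm1 : Nat.card (antiSub F k W) ≤ dm1) :
    d1 = Nat.card W.toAffine.Point ∧ dm1 = Nat.card (antiSub F k W) := by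
  have h := natCard_fixedSub_add_antiSub F k W hΔ
  rw [← natCard_fixedSub_eq_card F k W hΔ]
  omega

/-- The trace of Frobenius read off from `d₁`: with `d n = n² - a' n + q` for all `n`
(closed form of the recursion) the calibration gives `a' = q + 1 - # W(F)`. -/
theorem trace_eq_of_closed_form (hΔ : (W.map (algebraMap F k)).Δ ≠ 0) {d : ℤ → ℕ} {a' : ℤ}
    (hd : ∀ n : ℤ, (d n : ℤ) = n ^ 2 - a' * n + Fintype.card F)
    (h1 : Nat.card (fixedSub F k W) ≤ d 1) (hm1 : Nat.card (antiSub F k W) ≤ d (-1)) :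
    a' = (Fintype.card F : ℤ) + 1 - Nat.card W.toAffine.Point := by
  have hsum : d 1 + d (-1) = 2 * Fintype.card F + 2 := by
    have e1 := hd 1
    have e2 := hd (-1)
    zify
    rw [e1, e2]
    ring
  obtain ⟨h, -⟩ := d_one_eq_card F k W hΔ hsum h1 hm1
  have e1 := hd 1
  rw [h] at e1
  linarith

end Fermat.Agent.EC.HW.Calib
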