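import Mathlib
import Fermat.Agent.S13.MulByN
import Fermat.Agent.LR.RedFrobCount

/-!
# Program E (S58), block HW (Hasse–Weil in kernel-count form): the common setting (HW0)

`F` a finite field, `k ⊇ F` a field (later algebraically closed), `W` a Weierstrass curve over `F`,
`KK := k(E)` the function field of `W⁄k`.  Points are ALWAYS points of base changes of the `F`-curve
`W` (`(W.toAffine⁄k).Point`, `(W.toAffine⁄KK).Point`), so that `LR.RedFrob.frobPt F _ W` is the
Frobenius on both.

* `ιX : k[X] →+* KK`, `xK`, `yK`, the generic point `Pgen`, `Qn n := π Pgen - n • Pgen`;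
* `IsPrim`, `ht` for pairs and `IsPrim3`, `ht3` for triples of polynomials over `k`;
* `Reps p Q` : the pair `p` of polynomials represents the `x`-coordinate of `Q ∈ E(KK)`;
* `phiN n := frobPt - n • id` on `E(k)`.
-/

set_option autoImplicit false

open WeierstrassCurve WeierstrassCurve.Affine Polynomial

namespace Fermat.Agent.EC.HW

noncomputable section

open Fermat.Agent.S13.AddSub Fermat.Agent.LR.RedFrob

/-! ### Pairs and triples of polynomials -/

section Poly

variable {k : Type*} [Field k]

/-- A pair of polynomials is primitive if its entries are coprime. -/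
def IsPrim (p : Fin 2 → k[X]) : Prop := IsCoprime (p 0) (p 1)

/-- The height of a pair of polynomials. -/
def ht (p : Fin 2 → k[X]) : ℕ := max (p 0).natDegree (p 1).natDegree

/-- A triple of polynomials is primitive if its entries generate the unit ideal. -/
def IsPrim3 (v : Fin 3 → k[X]) : Prop := Ideal.span (Set.range v) = ⊤

/-- The height of a triple of polynomials. -/
def ht3 (v : Fin 3 → k[X]) : ℕ :=
  max (v 0).natDegree (max (v 1).natDegree (v 2).natDegree)

/-- Evaluation of a pair at a point. -/
def evalPair (x0 : k) (p : Fin 2 → k[X]) : Fin 2 → k := fun i => (p i).eval x0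

end Poly

/-! ### The function field and the generic point -/

section Setting

variable (F k : Type*) [Field F] [Fintype F] [Field k] [Algebra F k] (W : WeierstrassCurve F)

/-- The function field of `W⁄k`. -/
abbrev KK : Type _ := (W.toAffine⁄k).FunctionField

/-- `k[X] → k(E)`. -/
def ιX : k[X] →+* KK F k W :=
  (algebraMap (W.toAffine⁄k).CoordinateRing (KK F k W)).comp
    (algebraMap k[X] (W.toAffine⁄k).CoordinateRing)

/-- The coordinate function `x`. -/
def xK : KK F k W := ιX F k W X

/-- The coordinate function `y`. -/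
def yK : KK F k W :=
  algebraMap (W.toAffine⁄k).CoordinateRing (KK F k W) (CoordinateRing.mk (W.toAffine⁄k) X)

instance : DecidableEq (KK F k W) := Classical.decEq _

open Classical in
/-- The generic point `(x, y) ∈ E(k(E))` (it IS `Point.some xK yK _` as soon as `W.Δ ≠ 0`:
`Gen.Pgen_eq_some`). -/
def Pgen : (W.toAffine⁄(KK F k W)).Point :=
  if h : (W.toAffine⁄(KK F k W)).Nonsingular (xK F k W) (yK F k W) then
    Point.some (xK F k W) (yK F k W) h
  else 0

/-- `Q_n = π(P_gen) - n • P_gen ∈ E(k(E))`, `π` the `#F`-power Frobenius of `k(E)`. -/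
def Qn (n : ℤ) : (W.toAffine⁄(KK F k W)).Point :=
  frobPt F (KK F k W) W (Pgen F k W) - n • Pgen F k W

/-- The pair `p` of polynomials represents the `x`-coordinate of the point `Q` of `E(k(E))`:
`(ιX p₀ : ιX p₁) = (x(Q) : 1)`, resp. `(1 : 0)` for `Q = 0`, up to a nonzero scalar. -/
def Reps (p : Fin 2 → k[X]) (Q : (W.toAffine⁄(KK F k W)).Point) : Prop :=
  ∃ c : KK F k W, c ≠ 0 ∧ (fun i => ιX F k W (p i)) = c • Q.xRep

open Classical in
/-- The `x`-height of a point of `E(k(E))`: the height of a primitive pair representing it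
(`0` if there is none). -/
def xht (Q : (W.toAffine⁄(KK F k W)).Point) : ℕ :=
  if h : ∃ p : Fin 2 → k[X], IsPrim p ∧ Reps F k W p Q then ht (Classical.choose h) else 0

/-- `d_n`, the `x`-height of `Q_n` (the degree of `π - n`). -/
def dN (n : ℤ) : ℕ := xht F k W (Qn F k W n)

variable [DecidableEq k]

/-- `φ_n = π - n` on `E(k)`. -/
def phiN (n : ℤ) : (W.toAffine⁄k).Point →+ (W.toAffine⁄k).Point :=
  frobPt F k W - n • AddMonoidHom.id _

end Setting

end

end Fermat.Agent.EC.HW
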