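import Fermat.Agent.EC.HW.Export
import Fermat.Agent.EC.Good.StarRes

/-!
# Program E (S58), block HW: the export (★) in the `StarExport` shape of `EC/Good/StarRes`

`starExport : StarRes.StarExport` is `Export.star` at universe level `0`.
-/

set_option autoImplicit false

namespace Fermat.Agent.EC.HW.ExportB

/-- **HW8 in the consumer shape**: the hypothesis `hexport` of GOOD's `MainStar`. -/
theorem starExport : Fermat.Agent.EC.Good.StarRes.StarExport := by
  intro F k _ _ _ _ _ _ W hΔ n lam hlam hlamF
  exact Fermat.Agent.EC.HW.Export.star F k W hΔ n hlam hlamF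

end Fermat.Agent.EC.HW.ExportB
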