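import Mathlib
import Fermat.Agent.EC.Tor.Card

/-!
# Program E (S58), node (HW6-C): the fibre of an additive endomorphism over a point `Pg ≠ -Pg`
is in bijection with a set of `x`-coordinates

Abstract form of `EC/Tor/Card.card_fibre`. `L` algebraically closed, `W : Affine L` with
`W.Δ ≠ 0`, `φ : W.Point →+ W.Point`, `Pg ≠ 0`, `Pg ≠ -Pg`, and a set `S : Set L` such that, for
every `R ≠ 0`, `φ R = ± Pg ↔ x(R) ∈ S`. Then

* `card_fibre_eq` : `Nat.card {R // φ R = Pg} = Nat.card S`;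
* `card_ker_eq_card_fibre` : a nonempty fibre of an additive hom has the cardinality of the kernel;
* `card_ker_eq` : `Nat.card φ.ker = Nat.card S` as soon as `S` is nonempty.
-/

set_option autoImplicit false

namespace Fermat.Agent.EC.HW.FibreBij

open WeierstrassCurve WeierstrassCurve.Affine WeierstrassCurve.Affine.Point
open Fermat.Agent.EC.Tor.Card

/-- A nonempty fibre of an additive hom is a coset of the kernel. -/
theorem card_ker_eq_card_fibre {A B : Type*} [AddGroup A] [AddGroup B] (φ : A →+ B) (b : B)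
    (hb : ∃ a, φ a = b) : Nat.card φ.ker = Nat.card {a : A // φ a = b} := by
  obtain ⟨a₀, ha₀⟩ := hb
  refine Nat.card_congr
    { toFun := fun t => ⟨t.1 + a₀, by rw [map_add, (AddMonoidHom.mem_ker).mp t.2, zero_add, ha₀]⟩
      invFun := fun a => ⟨a.1 - a₀, by
        rw [AddMonoidHom.mem_ker, map_sub, a.2, ha₀, sub_self]⟩
      left_inv := fun t => Subtype.ext (add_sub_cancel_right _ _)
      right_inv := fun a => Subtype.ext (sub_add_cancel _ _) }

variable {L : Type*} [Field L] [DecidableEq L] [IsAlgClosed L] (W : Affine L)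

/-- **The fibre over `Pg` is in bijection with the set of `x`-coordinates `S`.** -/
theorem card_fibre_eq (hΔ : W.Δ ≠ 0) (φ : W.Point →+ W.Point) {Pg : W.Point} (hPg0 : Pg ≠ 0)
    (hPg2 : Pg ≠ -Pg) (S : Set L)
    (hspec : ∀ R : W.Point, R ≠ 0 → ((φ R = Pg ∨ φ R = -Pg) ↔ xC W R ∈ S)) :
    Nat.card {R : W.Point // φ R = Pg} = Nat.card S := by
  have hne : ∀ R : {R : W.Point // φ R = Pg}, R.1 ≠ 0 := by
    intro R h0
    apply hPg0
    rw [← R.2, h0, _root_.map_zero]
  let g : {R : W.Point // φ R = Pg} → S := fun R =>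
    ⟨xC W R.1, (hspec R.1 (hne R)).mp (Or.inl R.2)⟩
  have hinj : Function.Injective g := by
    intro R R' hRR'
    have hx : xC W R'.1 = xC W R.1 := (congrArg Subtype.val hRR').symm
    rcases eq_or_eq_neg_of_xC_eq W (hne R) (hne R') hx with h | h
    · exact Subtype.ext h.symm
    · exfalso
      apply hPg2
      calc Pg = φ R'.1 := R'.2.symm
        _ = φ (-R.1) := by rw [h]
        _ = -φ R.1 := map_neg _ _
        _ = -Pg := by rw [R.2]
  have hsurj : Function.Surjective g := by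
    rintro ⟨ρ, hρ⟩
    obtain ⟨R, hR0, hRx⟩ := exists_point_xC W hΔ ρ
    rcases (hspec R hR0).mpr (by rw [hRx]; exact hρ) with h | h
    · exact ⟨⟨R, h⟩, Subtype.ext hRx⟩
    · refine ⟨⟨-R, by rw [map_neg, h, neg_neg]⟩, Subtype.ext ?_⟩
      show xC W (-R) = ρ
      rw [xC_neg, hRx]
  exact Nat.card_congr (Equiv.ofBijective g ⟨hinj, hsurj⟩)

/-- **The kernel has the cardinality of `S`**, as soon as `S` is nonempty. -/
theorem card_ker_eq (hΔ : W.Δ ≠ 0) (φ : W.Point →+ W.Point) {Pg : W.Point} (hPg0 : Pg ≠ 0)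
    (hPg2 : Pg ≠ -Pg) (S : Set L)
    (hspec : ∀ R : W.Point, R ≠ 0 → ((φ R = Pg ∨ φ R = -Pg) ↔ xC W R ∈ S))
    (hS : S.Nonempty) : Nat.card φ.ker = Nat.card S := by
  rw [← card_fibre_eq W hΔ φ hPg0 hPg2 S hspec]
  apply card_ker_eq_card_fibre
  obtain ⟨ρ, hρ⟩ := hS
  obtain ⟨R, hR0, hRx⟩ := exists_point_xC W hΔ ρ
  rcases (hspec R hR0).mpr (by rw [hRx]; exact hρ) with h | h
  · exact ⟨R, h⟩
  · exact ⟨-R, by rw [map_neg, h, neg_neg]⟩

end Fermat.Agent.EC.HW.FibreBij
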