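import Fermat.Agent.EC.HW.FibreDegen2

/-!
Stub: superseded by `Fermat/Agent/EC/HW/FibreDegen2.lean` (namespace `Fermat.Agent.EC.HW.FibreDegen2`),
which carries the same statements (`IsConstAtGeneric`, `ker_eq_top_of_const`,
`frobPt_eq_zsmul_of_const`) against the vocabulary of `EC/HW/FibreKer.lean`.
-/
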