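import Mathlib
import Fermat.Agent.EC.HW.FibreFrob

/-!
# Program E (S58), block HW, node HW6 (degenerate `n`): a natural endomorphism which is constant
at the generic point vanishes on `E(k)`

In the vocabulary of `EC/HW/FibreKer` (`NatK`, `Natk`, `constMap`) and `EC/HW/FibreGeneric`
(`Pg`): if `φK (generic point)` is `0` or a point with coordinates in `k`, then `φk = 0`
(`ker_eq_top_of_const`). This is the hypothesis `hdeg` of `EC/HW/ExportSkel.export_star`
(`d n = 0`, i.e. `(π - n)(generic point)` of height zero, see `EC/HWb/Const`).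

Proof: for a point `R` of `E(Ω)` with transcendental `x`-coordinate, `φΩ R` is the image of
`φK (generic point)` under the evaluation homomorphism at `R`, hence the SAME constant point `c`
for all such `R`. For `D ∈ E(k)` both `Pg` and `Pg + D` have transcendental `x`-coordinates, so
`φΩ D = c - c = 0`.

This file REPLACES `EC/HW/FibreDegen.lean` (same statements; that file no longer compiles since the
vocabulary moved from `EC/HW/FibreConst` to `EC/HW/FibreKer`).
-/

set_option autoImplicit false
set_option linter.unusedSectionVars false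

noncomputable section

namespace Fermat.Agent.EC.HW.FibreDegen2

open WeierstrassCurve WeierstrassCurve.Affine Polynomial
open Fermat.Agent.EC.HW.GenericPoint Fermat.Agent.EC.HW.FibreKer Fermat.Agent.EC.HW.FibreGeneric

variable {F : Type*} [CommRing F] {W0 : WeierstrassCurve F} [W0.IsElliptic]
  {k : Type*} [Field k] [Algebra F k]
  {Ω : Type*} [Field Ω] [Algebra F Ω] [Algebra k Ω] [IsScalarTower F k Ω]
  [DecidableEq k] [DecidableEq Ω] [DecidableEq (KK W0 k)]
  {φK : ((W0.toAffine⁄(KK W0 k)) : Affine (KK W0 k)).Point →+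
    ((W0.toAffine⁄(KK W0 k)) : Affine (KK W0 k)).Point}
  {φΩ : ((W0.toAffine⁄Ω) : Affine Ω).Point →+ ((W0.toAffine⁄Ω) : Affine Ω).Point}
  {φk : ((W0.toAffine⁄k) : Affine k).Point →+ ((W0.toAffine⁄k) : Affine k).Point}

/-- `φK (generic point)` is `0` or has its coordinates in `k`. -/
def IsConstAtGeneric (φK : ((W0.toAffine⁄(KK W0 k)) : Affine (KK W0 k)).Point →+
    ((W0.toAffine⁄(KK W0 k)) : Affine (KK W0 k)).Point) : Prop :=
  φK (genericPoint W0 k) = 0 ∨
    ∃ (a b : k) (h : ((W0.toAffine⁄(KK W0 k)) : Affine (KK W0 k)).Nonsingular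
        (algebraMap k (KK W0 k) a) (algebraMap k (KK W0 k) b)),
      φK (genericPoint W0 k) = Point.some _ _ h

omit [DecidableEq k] in
/-- All `k`-algebra homomorphisms `K → Ω` take the same value at a constant point. -/
theorem map_eq_map_of_isConst (hQ0 : IsConstAtGeneric φK) (f g : KK W0 k →ₐ[k] Ω) :
    Point.map (W' := W0.toAffine) f (φK (genericPoint W0 k)) =
      Point.map (W' := W0.toAffine) g (φK (genericPoint W0 k)) := by
  rcases hQ0 with h0 | ⟨a, b, h, hab⟩
  · rw [h0, map_zero, map_zero]
  · rw [hab, Point.map_some, Point.map_some, Point.some.injEq]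
    exact ⟨by rw [f.commutes, g.commutes], by rw [f.commutes, g.commutes]⟩

/-- A point of `E(Ω)` which is not constant has a transcendental `x`-coordinate. -/
theorem transcendental_of_not_mem_range_constMap [IsAlgClosed k] {ρ σ : Ω}
    (h : ((W0.toAffine⁄Ω) : Affine Ω).Nonsingular ρ σ)
    (hR : Point.some ρ σ h ∉ Set.range (constMap W0 k (Ω := Ω))) : Transcendental k ρ := by
  by_contra hρ
  exact hR (mem_range_constMap_of_mem_range h (mem_range_of_not_transcendental hρ))

omit [DecidableEq (KK W0 k)] in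
/-- A constant point of `E(Ω)` different from `0` has its `x`-coordinate in `k`. -/
theorem x_mem_range_of_mem_range_constMap {ρ σ : Ω}
    (h : ((W0.toAffine⁄Ω) : Affine Ω).Nonsingular ρ σ)
    (hR : Point.some ρ σ h ∈ Set.range (constMap W0 k (Ω := Ω))) :
    ρ ∈ Set.range (algebraMap k Ω) := by
  obtain ⟨D, hD⟩ := hR
  rcases D with _ | ⟨a, b, hab⟩
  · exact absurd hD.symm (Point.some_ne_zero h)
  · rw [constMap, Point.map_some, Point.some.injEq] at hD
    exact ⟨a, hD.1⟩

/-- The image of the generic point is not a constant point. -/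
theorem Pg_not_mem_range_constMap (ι0 : KK W0 k →ₐ[k] Ω) :
    Pg ι0 ∉ Set.range (constMap W0 k (Ω := Ω)) := by
  intro h
  rw [Pg_eq] at h
  exact ι0_xK_not_mem_range ι0 (x_mem_range_of_mem_range_constMap _ h)

/-- **The degenerate case**: if `φK (generic point)` is zero or constant then `φk = 0`. -/
theorem ker_eq_top_of_const [IsAlgClosed k] (ι0 : KK W0 k →ₐ[k] Ω) (hK : NatK φK φΩ)
    (hk : Natk φΩ φk) (hQ0 : IsConstAtGeneric φK) (D : ((W0.toAffine⁄k) : Affine k).Point) :
    φk D = 0 := by
  -- the common value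
  set c : ((W0.toAffine⁄Ω) : Affine Ω).Point :=
    Point.map (W' := W0.toAffine) ι0 (φK (genericPoint W0 k)) with hc
  have hval : ∀ R : ((W0.toAffine⁄Ω) : Affine Ω).Point,
      R ∉ Set.range (constMap W0 k (Ω := Ω)) → φΩ R = c := by
    rintro (_ | ⟨ρ, σ, h⟩) hR
    · exact absurd ⟨0, map_zero _⟩ hR
    · have hρ := transcendental_of_not_mem_range_constMap h hR
      rw [map_eq_map_evHom hK h hρ, hc]
      exact map_eq_map_of_isConst hQ0 _ _
  have h1 : φΩ (Pg ι0) = c := hval _ (Pg_not_mem_range_constMap ι0)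
  have h2 : φΩ (Pg ι0 + constMap W0 k D) = c := by
    apply hval
    rintro ⟨D', hD'⟩
    apply Pg_not_mem_range_constMap ι0
    refine ⟨D' - D, ?_⟩
    rw [map_sub, hD']
    abel
  have h0 : φΩ (constMap W0 k D) = 0 := by
    rw [map_add, h1] at h2
    exact add_eq_left.mp h2
  rw [← hk D] at h0
  exact constMap_injective (by rw [h0, map_zero])

section Frobenius

open Fermat.Agent.EC.HW.FibreFrob Fermat.Agent.LR.RedFrob

/-- **The degenerate case for `π - n`** (the hypothesis `hdeg` of `ExportSkel.export_star`): if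
`(π - n)(generic point)` is zero or constant, then `π = n` on all of `E(k)`. -/
theorem frobPt_eq_zsmul_of_const (F : Type*) [Field F] [Fintype F] (W0 : WeierstrassCurve F)
    [W0.IsElliptic] (k : Type*) [Field k] [Algebra F k] [IsAlgClosed k] [DecidableEq k]
    [DecidableEq (KK W0 k)] {Ω : Type*} [Field Ω] [Algebra F Ω] [Algebra k Ω]
    [IsScalarTower F k Ω] [DecidableEq Ω] (ι0 : KK W0 k →ₐ[k] Ω) (n : ℤ)
    (hQ0 : IsConstAtGeneric (frobSub F W0 (KK W0 k) n))
    (P : ((W0.toAffine⁄k) : Affine k).Point) : frobPt F k W0 P = n • P := by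
  have h := ker_eq_top_of_const ι0 (natK_frobSub F W0 k n) (natk_frobSub F W0 k n) hQ0 P
  rw [frobSub_apply, sub_eq_zero] at h
  exact h

end Frobenius

end Fermat.Agent.EC.HW.FibreDegen2
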