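import Fermat.Agent.EC.HW.Defs

/-!
# Program E (S58), block HW, file GEN: the generic point

* `ιX_injective`, `ιX_C`;
* `equation_gen`, `nonsingular_gen`, `Pgen_eq_some` : the coordinate functions `(xK, yK)` form a
  nonsingular point of `E(k(E))`;
* `frob_Pgen` : `π(P_gen) = (xK ^ q, yK ^ q)`;
* `reps_Pgen`, `reps_Qn_zero`, `isPrim_X_one`, `isPrim_X_pow_one`, `ht_X_one`, `ht_X_pow_one`;
* `Qn_add_Pgen`, `Qn_sub_Pgen`.
-/

set_option autoImplicit false
set_option linter.unusedSectionVars false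

open WeierstrassCurve WeierstrassCurve.Affine Polynomial

namespace Fermat.Agent.EC.HW

noncomputable section

open Fermat.Agent.S13.AddSub Fermat.Agent.LR.RedFrob

variable (F k : Type*) [Field F] [Fintype F] [Field k] [Algebra F k] (W : WeierstrassCurve F)

theorem ιX_injective : Function.Injective (ιX F k W) := by
  refine (IsFractionRing.injective (W.toAffine⁄k).CoordinateRing (KK F k W)).comp ?_
  exact FaithfulSMul.algebraMap_injective k[X] (W.toAffine⁄k).CoordinateRing

theorem ιX_C (a : k) : ιX F k W (C a) = algebraMap k (KK F k W) a := by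
  rw [ιX, RingHom.comp_apply, Polynomial.C_eq_algebraMap]
  rw [← IsScalarTower.algebraMap_apply k k[X] (W.toAffine⁄k).CoordinateRing,
    ← IsScalarTower.algebraMap_apply k (W.toAffine⁄k).CoordinateRing (KK F k W)]

theorem ιX_X : ιX F k W X = xK F k W := rfl

/-- The Weierstrass equation holds for the coordinate functions. -/
theorem equation_gen : (W.toAffine⁄(KK F k W)).Equation (xK F k W) (yK F k W) := by
  have h0 : CoordinateRing.mk (W.toAffine⁄k) (W.toAffine⁄k).polynomial = 0 := AdjoinRoot.mk_self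
  have h1 := congrArg (algebraMap (W.toAffine⁄k).CoordinateRing (KK F k W)) h0
  rw [map_zero] at h1
  rw [Affine.equation_iff']
  simp only [WeierstrassCurve.Affine.polynomial, map_sub, map_add, map_mul, map_pow] at h1
  have hc : ∀ a : F, algebraMap (W.toAffine⁄k).CoordinateRing (KK F k W)
      (CoordinateRing.mk (W.toAffine⁄k) (C (C (algebraMap F k a)))) = algebraMap F (KK F k W) a := by
    intro a
    have h2 : CoordinateRing.mk (W.toAffine⁄k) (C (C (algebraMap F k a))) =
        algebraMap k (W.toAffine⁄k).CoordinateRing (algebraMap F k a) := rfl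
    rw [h2, ← IsScalarTower.algebraMap_apply k (W.toAffine⁄k).CoordinateRing (KK F k W),
      ← IsScalarTower.algebraMap_apply F k (KK F k W)]
  have hx : algebraMap (W.toAffine⁄k).CoordinateRing (KK F k W)
      (CoordinateRing.mk (W.toAffine⁄k) (C X)) = xK F k W := rfl
  have hy : algebraMap (W.toAffine⁄k).CoordinateRing (KK F k W)
      (CoordinateRing.mk (W.toAffine⁄k) X) = yK F k W := rfl
  simp only [WeierstrassCurve.baseChange, WeierstrassCurve.map_a₁, WeierstrassCurve.map_a₂,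
    WeierstrassCurve.map_a₃, WeierstrassCurve.map_a₄, WeierstrassCurve.map_a₆] at h1 ⊢
  rw [hx, hy, hc, hc, hc, hc, hc] at h1
  linear_combination h1

theorem Δ_gen_ne_zero (hΔ : W.Δ ≠ 0) : (W.toAffine⁄(KK F k W)).Δ ≠ 0 := by
  show (W.map (algebraMap F (KK F k W))).Δ ≠ 0
  rw [WeierstrassCurve.map_Δ]
  exact (map_ne_zero_iff _ (algebraMap F (KK F k W)).injective).mpr hΔ

theorem nonsingular_gen (hΔ : W.Δ ≠ 0) :
    (W.toAffine⁄(KK F k W)).Nonsingular (xK F k W) (yK F k W) :=
  (Affine.equation_iff_nonsingular_of_Δ_ne_zero (Δ_gen_ne_zero F k W hΔ)).mp (equation_gen F k W)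

theorem Pgen_eq_some (hΔ : W.Δ ≠ 0) :
    Pgen F k W = Point.some (xK F k W) (yK F k W) (nonsingular_gen F k W hΔ) := by
  rw [Pgen, dif_pos (nonsingular_gen F k W hΔ)]

/-- `π(P_gen) = (x ^ q, y ^ q)`. -/
theorem frob_Pgen (hΔ : W.Δ ≠ 0) :
    ∃ h : (W.toAffine⁄(KK F k W)).Nonsingular (xK F k W ^ Fintype.card F)
        (yK F k W ^ Fintype.card F),
      frobPt F (KK F k W) W (Pgen F k W) =
        Point.some (xK F k W ^ Fintype.card F) (yK F k W ^ Fintype.card F) h := by
  rw [Pgen_eq_some F k W hΔ, frobPt, Point.map_some]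
  exact ⟨_, rfl⟩

theorem isPrim_X_one : IsPrim (![X, 1] : Fin 2 → k[X]) := by
  simp [IsPrim, isCoprime_one_right]

theorem isPrim_X_pow_one (m : ℕ) : IsPrim (![X ^ m, 1] : Fin 2 → k[X]) := by
  simp [IsPrim, isCoprime_one_right]

theorem ht_X_one : ht (![X, 1] : Fin 2 → k[X]) = 1 := by
  simp [ht]

theorem ht_X_pow_one (m : ℕ) : ht (![X ^ m, 1] : Fin 2 → k[X]) = m := by
  simp [ht]

theorem reps_Pgen (hΔ : W.Δ ≠ 0) : Reps F k W ![X, 1] (Pgen F k W) := by
  refine ⟨1, one_ne_zero, ?_⟩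
  rw [Pgen_eq_some F k W hΔ, one_smul]
  funext i
  fin_cases i <;> simp [Point.xRep, ιX_X]

theorem Qn_zero : Qn F k W 0 = frobPt F (KK F k W) W (Pgen F k W) := by
  rw [Qn, zero_zsmul, sub_zero]

theorem reps_Qn_zero (hΔ : W.Δ ≠ 0) :
    Reps F k W ![X ^ Fintype.card F, 1] (Qn F k W 0) := by
  obtain ⟨h, hq⟩ := frob_Pgen F k W hΔ
  refine ⟨1, one_ne_zero, ?_⟩
  rw [Qn_zero, hq, one_smul]
  funext i
  fin_cases i <;> simp [Point.xRep, ιX_X]

theorem Qn_add_Pgen (n : ℤ) : Qn F k W n + Pgen F k W = Qn F k W (n - 1) := by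
  simp only [Qn, sub_zsmul, one_zsmul]
  abel

theorem Qn_sub_Pgen (n : ℤ) : Qn F k W n - Pgen F k W = Qn F k W (n + 1) := by
  simp only [Qn, add_zsmul, one_zsmul]
  abel

end

end Fermat.Agent.EC.HW
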