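import Mathlib

/-!
# Program E (S58), block HW, leaf HW1-c: the fixed field of the hyperelliptic involution is `k(x)`

`k` a field, `W` a Weierstrass curve over `k` with `Δ ≠ 0`, `K = W.FunctionField`,
`R = W.CoordinateRing` (Mathlib).  Let `σ : K →+* K` be a ring homomorphism fixing the image of
`k[X]` and sending the `y`-coordinate function `yK` to `-yK - (a₁ x + a₃)` (the hyperelliptic
involution `ι`, however it is defined).  Then every `σ`-fixed `f ∈ K` lies in `k(x)`:
`f * n(x) = p(x)` for polynomials `p, n ∈ k[X]`, `n ≠ 0`.  All characteristics, general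
Weierstrass equations.

Proof: write `f = a / b` with `a, b ∈ R`; multiply numerator and denominator by the conjugate of
`b`; `b * conj b` is the norm, a polynomial in `x`; the new numerator `p + q y` is `σ`-fixed, so
`2 q = 0` and `q (a₁ x + a₃) = 0`, and `q ≠ 0` would force `2 = 0`, `a₁ = a₃ = 0`, hence `Δ = 0`.
-/

set_option autoImplicit false

open Polynomial WeierstrassCurve WeierstrassCurve.Affine
open scoped Polynomial.Bivariate

namespace Fermat.Agent.EC.HW.InvFixed

variable {k : Type*} [Field k] (W : Affine k)

/-- The `y`-coordinate function in the function field. -/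
noncomputable def yK : W.FunctionField :=
  algebraMap W.CoordinateRing W.FunctionField (CoordinateRing.mk W Y)

/-- The linear polynomial `a₁ X + a₃`. -/
noncomputable def linP : k[X] := C W.a₁ * X + C W.a₃

/-- The cubic `X³ + a₂ X² + a₄ X + a₆`. -/
noncomputable def cubP : k[X] := X ^ 3 + C W.a₂ * X ^ 2 + C W.a₄ * X + C W.a₆

/-- The image in `K` of `p + q y`. -/
theorem algebraMap_smul_basis (p q : k[X]) :
    algebraMap W.CoordinateRing W.FunctionField
        (p • (1 : W.CoordinateRing) + q • CoordinateRing.mk W Y) =
      algebraMap k[X] W.FunctionField p + algebraMap k[X] W.FunctionField q * yK W := by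
  rw [map_add, Algebra.smul_def, Algebra.smul_def, mul_one, map_mul,
    ← IsScalarTower.algebraMap_apply k[X] W.CoordinateRing W.FunctionField,
    ← IsScalarTower.algebraMap_apply k[X] W.CoordinateRing W.FunctionField]
  rfl

/-- The Weierstrass relation in the function field. -/
theorem yK_relation :
    yK W * yK W = algebraMap k[X] W.FunctionField (cubP W)
      - algebraMap k[X] W.FunctionField (linP W) * yK W := by
  have h := CoordinateRing.smul_basis_mul_Y (W' := W) 0 1
  rw [zero_smul, zero_add, one_smul, one_mul, one_mul, zero_sub] at h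
  have h2 := congrArg (algebraMap W.CoordinateRing W.FunctionField) h
  rw [map_mul, algebraMap_smul_basis, map_neg] at h2
  have h3 : yK W * yK W = algebraMap k[X] W.FunctionField (cubP W)
      + -(algebraMap k[X] W.FunctionField (linP W)) * yK W := h2
  rw [h3]
  ring

section Sigma

variable (σ : W.FunctionField →+* W.FunctionField)
  (hσX : ∀ p : k[X], σ (algebraMap k[X] W.FunctionField p) = algebraMap k[X] W.FunctionField p)
  (hσY : σ (yK W) = -yK W - algebraMap k[X] W.FunctionField (linP W))

include hσX hσY in
/-- `σ` acts on the image of `p + q y` as the conjugation `p + q y ↦ (p - q (a₁ x + a₃)) - q y`. -/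
theorem sigma_smul_basis (p q : k[X]) :
    σ (algebraMap W.CoordinateRing W.FunctionField
        (p • (1 : W.CoordinateRing) + q • CoordinateRing.mk W Y)) =
      algebraMap W.CoordinateRing W.FunctionField
        ((p - q * linP W) • (1 : W.CoordinateRing) + (-q) • CoordinateRing.mk W Y) := by
  rw [algebraMap_smul_basis, algebraMap_smul_basis, map_add, map_mul, hσX, hσX, hσY, map_sub,
    map_mul, map_neg]
  ring

include hσX hσY in
/-- **Fix(ι) = k(x).** -/
theorem exists_ratio_of_fixed (hΔ : W.Δ ≠ 0) {f : W.FunctionField} (hf : σ f = f) :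
    ∃ p n : k[X], n ≠ 0 ∧
      f * algebraMap k[X] W.FunctionField n = algebraMap k[X] W.FunctionField p := by
  obtain ⟨a, b, hb, hab⟩ := IsFractionRing.div_surjective (A := W.CoordinateRing) f
  set φ := algebraMap W.CoordinateRing W.FunctionField with hφ
  have hφinj : Function.Injective φ := IsFractionRing.injective _ _
  have hb0 : φ b ≠ 0 := by
    intro h
    exact nonZeroDivisors.ne_zero hb (hφinj (by rw [h, map_zero]))
  obtain ⟨pb, qb, hbrep⟩ := CoordinateRing.exists_smul_basis_eq (W' := W) b
  -- the conjugate of `b`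
  set b' : W.CoordinateRing :=
    (pb - qb * linP W) • (1 : W.CoordinateRing) + (-qb) • CoordinateRing.mk W Y with hb'
  have hσb : σ (φ b) = φ b' := by
    rw [← hbrep]
    exact sigma_smul_basis W σ hσX hσY pb qb
  have hb'0 : φ b' ≠ 0 := by
    rw [← hσb]
    exact (map_ne_zero σ).mpr hb0
  -- the norm
  set N : k[X] := pb ^ 2 - pb * qb * linP W - qb ^ 2 * cubP W with hN
  have hnorm : φ b * φ b' = algebraMap k[X] W.FunctionField N := by
    rw [← hbrep, hb', hφ, algebraMap_smul_basis, algebraMap_smul_basis, hN]
    simp only [map_sub, map_mul, map_pow, map_neg]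
    linear_combination (-(algebraMap k[X] W.FunctionField qb) ^ 2) * yK_relation W
  have hN0 : N ≠ 0 := by
    intro h
    rw [h, map_zero] at hnorm
    exact mul_ne_zero hb0 hb'0 hnorm
  -- the new numerator
  obtain ⟨pc, qc, hcrep⟩ := CoordinateRing.exists_smul_basis_eq (W' := W) (a * b')
  have hfc : f * algebraMap k[X] W.FunctionField N = φ (a * b') := by
    rw [← hnorm, map_mul, ← hab]
    field_simp
  -- the numerator is `σ`-fixed
  have hfix : σ (φ (a * b')) = φ (a * b') := by
    rw [← hfc, map_mul, hf, hσX]
  rw [← hcrep] at hfix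
  rw [sigma_smul_basis W σ hσX hσY pc qc] at hfix
  have hfix2 := hφinj hfix
  have hzero : (-(qc * linP W)) • (1 : W.CoordinateRing) +
      (-qc - qc) • CoordinateRing.mk W Y = 0 := by
    have h1 : ((pc - qc * linP W) • (1 : W.CoordinateRing) + (-qc) • CoordinateRing.mk W Y) -
        (pc • (1 : W.CoordinateRing) + qc • CoordinateRing.mk W Y) = 0 := sub_eq_zero.mpr hfix2
    rw [← h1]
    simp only [sub_smul, neg_smul]
    abel
  obtain ⟨h1, h2⟩ := CoordinateRing.smul_basis_eq_zero (W' := W) hzero
  have hqc : qc = 0 := by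
    by_contra hq
    have hlin : linP W = 0 := by
      rcases mul_eq_zero.mp (neg_eq_zero.mp h1) with h | h
      · exact absurd h hq
      · exact h
    have h2' : (2 : k[X]) * qc = 0 := by linear_combination -h2
    have htwo : (2 : k[X]) = 0 := by
      rcases mul_eq_zero.mp h2' with h | h
      · exact h
      · exact absurd h hq
    have htwok : (2 : k) = 0 := by
      have : (C (2 : k) : k[X]) = 0 := by rw [map_ofNat]; exact htwo
      exact C_eq_zero.mp this
    have ha1 : W.a₁ = 0 := by
      have := congrArg (fun p : k[X] => p.coeff 1) hlin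
      simpa [linP, coeff_X, coeff_C] using this
    have ha3 : W.a₃ = 0 := by
      have := congrArg (fun p : k[X] => p.coeff 0) hlin
      simpa [linP, coeff_X, coeff_C] using this
    apply hΔ
    simp only [WeierstrassCurve.Δ, WeierstrassCurve.b₂, WeierstrassCurve.b₄, WeierstrassCurve.b₆,
      WeierstrassCurve.b₈, ha1, ha3]
    linear_combination (-8 * W.a₂ ^ 2 * (4 * W.a₂ * W.a₆ - W.a₄ ^ 2) - 32 * W.a₄ ^ 3
      - 216 * W.a₆ ^ 2 + 144 * W.a₂ * W.a₄ * W.a₆) * htwok
  refine ⟨pc, N, hN0, ?_⟩
  rw [hfc, ← hcrep, hφ, algebraMap_smul_basis, hqc, map_zero, zero_mul, add_zero]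

end Sigma

end Fermat.Agent.EC.HW.InvFixed
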