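import Mathlib
import Fermat.Agent.EC.HW.FibreFrob
import Fermat.Agent.EC.HW.InvFixed
import Fermat.Agent.EC.HWb.PtHeight

/-!
# Program E (S58), block HW, node HW1: odd points of `E(k(E))` have `x`-coordinate in `k(x)`

`W0` an elliptic curve over `F`, `k` a field over `F`, `K = k(W0⁄k)` (names of `GenericPoint`).

* `iota : K →ₐ[k] K` : the hyperelliptic involution `x ↦ x`, `y ↦ -y - a₁ x - a₃`
  (`evHom` at the point `-(x, y)`); `iota_xK`, `iota_yK`, `iota_algebraMap_poly`;
* `map_iota_genericPoint` : `Point.map iota (genericPoint) = -genericPoint`;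
* `isXRat_of_odd` : a point `Q` of `E(K)` with `Point.map iota Q = -Q` is `IsXRat`
  (its `x`-coordinate is `iota`-fixed, hence in `k(x)` by `InvFixed.exists_ratio_of_fixed`);
* `map_iota_frobPt`, `odd_frobPt_sub_zsmul`, and **`isXRat_frobPt_sub_zsmul`** (= `hQ` of HW1):
  for `F` a finite field, every `π P_gen - n • P_gen` is `IsXRat`.
-/

set_option autoImplicit false

noncomputable section

namespace Fermat.Agent.EC.HW.OddXRat

open WeierstrassCurve WeierstrassCurve.Affine Polynomial
open Fermat.Agent.EC.HW.GenericPoint Fermat.Agent.EC.HW.FibreGeneric Fermat.Agent.EC.HWb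
  Fermat.Agent.LR.RedFrob

section Iota

variable {F : Type*} [CommRing F] (W0 : WeierstrassCurve F) (k : Type*) [Field k] [Algebra F k]

/-- The point `-(x, y)` satisfies the Weierstrass equation. -/
theorem equation_neg_generic :
    ((W0.toAffine⁄(KK W0 k)) : Affine (KK W0 k)).Equation (xK W0 k)
      (((W0.toAffine⁄(KK W0 k)) : Affine (KK W0 k)).negY (xK W0 k) (yK W0 k)) :=
  (equation_neg ..).mpr (equation_generic W0 k)

/-- The hyperelliptic involution of the function field: `x ↦ x`, `y ↦ -y - a₁ x - a₃`. -/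
def iota : KK W0 k →ₐ[k] KK W0 k :=
  evHom (equation_neg_generic W0 k) (transcendental_xK W0 k)

@[simp]
theorem iota_xK : iota W0 k (xK W0 k) = xK W0 k :=
  evHom_xK _ _

theorem iota_yK : iota W0 k (yK W0 k) =
    ((W0.toAffine⁄(KK W0 k)) : Affine (KK W0 k)).negY (xK W0 k) (yK W0 k) :=
  evHom_yK _ _

/-- The structure map `k[X] → K` is `aeval xK`. -/
theorem algebraMap_poly_KK (p : k[X]) : algebraMap k[X] (KK W0 k) p = aeval (xK W0 k) p := by
  rw [aeval_xK, ← IsScalarTower.algebraMap_apply]

/-- `iota` fixes `k(x)`. -/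
theorem iota_algebraMap_poly (p : k[X]) :
    iota W0 k (algebraMap k[X] (KK W0 k) p) = algebraMap k[X] (KK W0 k) p := by
  rw [algebraMap_poly_KK, iota, evHom_aeval_xK]

theorem algebraMap_poly_injective : Function.Injective (algebraMap k[X] (KK W0 k)) :=
  FaithfulSMul.algebraMap_injective k[X] (KK W0 k)

variable [W0.IsElliptic] [DecidableEq (KK W0 k)]

/-- `iota` maps the generic point to its negative. -/
theorem map_iota_genericPoint :
    Point.map (W' := W0.toAffine) (iota W0 k) (genericPoint W0 k) = -genericPoint W0 k := by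
  have hns : ((W0.toAffine⁄(KK W0 k)) : Affine (KK W0 k)).Nonsingular (xK W0 k)
      (((W0.toAffine⁄(KK W0 k)) : Affine (KK W0 k)).negY (xK W0 k) (yK W0 k)) :=
    (nonsingular_neg ..).mpr (nonsingular_generic W0 k)
  rw [iota, map_evHom_genericPoint (equation_neg_generic W0 k) (transcendental_xK W0 k) hns]
  unfold GenericPoint.genericPoint
  rw [Point.neg_some]

/-- **Odd points are `x`-rational**: a point `Q` of `E(K)` with `iota Q = -Q` has its
`x`-coordinate in `k(x)`. -/
theorem isXRat_of_odd {Q : ((W0.toAffine⁄(KK W0 k)) : Affine (KK W0 k)).Point}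
    (hQ : Point.map (W' := W0.toAffine) (iota W0 k) Q = -Q) : IsXRat (k := k) Q := by
  rcases Q with _ | ⟨x, y, h⟩
  · exact isXRat_zero
  · rw [Point.map_some, Point.neg_some, Point.some.injEq] at hQ
    have hx : iota W0 k x = x := hQ.1
    have hΔ : (W0.baseChange k).toAffine.Δ ≠ 0 := by
      have := isElliptic_baseChange W0 k
      exact ((W0.toAffine⁄k) : Affine k).isUnit_Δ.ne_zero
    have hσY : (iota W0 k : KK W0 k →+* KK W0 k) (InvFixed.yK (W0.baseChange k).toAffine) =
        -InvFixed.yK (W0.baseChange k).toAffine -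
          algebraMap k[X] (KK W0 k) (InvFixed.linP (W0.baseChange k).toAffine) := by
      have h1 : InvFixed.yK (W0.baseChange k).toAffine = yK W0 k := rfl
      rw [h1, RingHom.coe_coe, iota_yK, negY, InvFixed.linP, algebraMap_poly_KK, map_add, map_mul,
        aeval_C, aeval_C, aeval_X]
      have d1 : ((W0.toAffine⁄(KK W0 k)) : Affine (KK W0 k)).a₁ =
          algebraMap k (KK W0 k) (W0.baseChange k).toAffine.a₁ := rfl
      have d3 : ((W0.toAffine⁄(KK W0 k)) : Affine (KK W0 k)).a₃ =
          algebraMap k (KK W0 k) (W0.baseChange k).toAffine.a₃ := rfl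
      rw [d1, d3]
      ring
    obtain ⟨p, n, hn, hpn⟩ := InvFixed.exists_ratio_of_fixed (W0.baseChange k).toAffine
      (iota W0 k : KK W0 k →+* KK W0 k) (fun p => iota_algebraMap_poly W0 k p) hσY hΔ
      (f := x) hx
    exact isXRat_some_of_mul_eq (algebraMap_poly_injective W0 k) h p n hn hpn

end Iota

section Frob

variable (F : Type*) [Field F] [Fintype F] (W0 : WeierstrassCurve F) [W0.IsElliptic]
  (k : Type*) [Field k] [Algebra F k] [DecidableEq (KK W0 k)]

omit [W0.IsElliptic] in
/-- `iota` commutes with the Frobenius. -/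
theorem map_iota_frobPt (P : ((W0.toAffine⁄(KK W0 k)) : Affine (KK W0 k)).Point) :
    Point.map (W' := W0.toAffine) (iota W0 k) (frobPt F (KK W0 k) W0 P) =
      frobPt F (KK W0 k) W0 (Point.map (W' := W0.toAffine) (iota W0 k) P) :=
  FibreFrob.map_frobPt F W0 (iota W0 k) P

/-- `π P_gen - n • P_gen` is odd. -/
theorem odd_frobPt_sub_zsmul (n : ℤ) :
    Point.map (W' := W0.toAffine) (iota W0 k)
        (frobPt F (KK W0 k) W0 (genericPoint W0 k) - n • genericPoint W0 k) =
      -(frobPt F (KK W0 k) W0 (genericPoint W0 k) - n • genericPoint W0 k) := by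
  rw [map_sub, map_zsmul, map_iota_frobPt, map_iota_genericPoint, map_neg, smul_neg, neg_sub,
    sub_neg_eq_add, neg_add_eq_sub]

/-- **HW1**: every `π P_gen - n • P_gen` has its `x`-coordinate in `k(x)`. -/
theorem isXRat_frobPt_sub_zsmul (n : ℤ) :
    IsXRat (k := k) (frobPt F (KK W0 k) W0 (genericPoint W0 k) - n • genericPoint W0 k) :=
  isXRat_of_odd W0 k (odd_frobPt_sub_zsmul F W0 k n)

end Frob

end Fermat.Agent.EC.HW.OddXRat
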