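import Mathlib

/-!
# Program E (S58), block HW: transport of points along an equality of Weierstrass curves

The base change of a Weierstrass curve in two steps, `(W₀.baseChange A).baseChange L`, and in one
step, `W₀.baseChange L`, are equal only *propositionally* (`WeierstrassCurve.map_map` and
`IsScalarTower.algebraMap_eq`). This file provides the transport of points:

* `pointCongr (h : W = W') : W.Point ≃+ W'.Point` for `W W' : Affine K`, with `pointCongr_some`,
  `xRep_pointCongr`, `pointCongr_symm`, `pointCongr_trans`;
* `baseChange_baseChange` : `(W₀.baseChange A).baseChange L = W₀.baseChange L`;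
* `towerCongr W₀ A L : ((W₀.baseChange A).toAffine⁄L).Point ≃+ (W₀.toAffine⁄L).Point` with
  `towerCongr_some`, `xRep_towerCongr` and the compatibility `map_towerCongr` with
  `Affine.Point.map`.
-/

set_option autoImplicit false

namespace Fermat.Agent.EC.HW.PointCongr

open WeierstrassCurve WeierstrassCurve.Affine

section Generic

variable {K : Type*} [Field K] [DecidableEq K]

/-- Transport of points along an equality of curves. -/
def pointCongr {W W' : Affine K} (h : W = W') : W.Point ≃+ W'.Point := by
  subst h
  exact AddEquiv.refl _

@[simp]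
theorem pointCongr_rfl {W : Affine K} : pointCongr (rfl : W = W) = AddEquiv.refl _ := rfl

theorem pointCongr_zero {W W' : Affine K} (h : W = W') : pointCongr h (0 : W.Point) = 0 :=
  map_zero _

omit [DecidableEq K] in
theorem nonsingular_congr {W W' : Affine K} (h : W = W') {x y : K} (hxy : W.Nonsingular x y) :
    W'.Nonsingular x y := h ▸ hxy

omit [DecidableEq K] in
theorem equation_congr {W W' : Affine K} (h : W = W') {x y : K} (hxy : W.Equation x y) :
    W'.Equation x y := h ▸ hxy

theorem pointCongr_some {W W' : Affine K} (h : W = W') {x y : K} (hxy : W.Nonsingular x y) :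
    pointCongr h (Point.some x y hxy) = Point.some x y (nonsingular_congr h hxy) := by
  subst h
  rfl

theorem xRep_pointCongr {W W' : Affine K} (h : W = W') (P : W.Point) :
    (pointCongr h P).xRep = P.xRep := by
  subst h
  rfl

theorem pointCongr_symm {W W' : Affine K} (h : W = W') :
    (pointCongr h).symm = pointCongr h.symm := by
  subst h
  rfl

theorem pointCongr_symm_apply {W W' : Affine K} (h : W = W') (P : W'.Point) :
    (pointCongr h).symm P = pointCongr h.symm P := by
  rw [pointCongr_symm]

theorem pointCongr_trans {W W' W'' : Affine K} (h : W = W') (h' : W' = W'') (P : W.Point) :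
    pointCongr h' (pointCongr h P) = pointCongr (h.trans h') P := by
  subst h
  subst h'
  rfl

theorem pointCongr_pointCongr_symm {W W' : Affine K} (h : W = W') (P : W'.Point) :
    pointCongr h (pointCongr h.symm P) = P := by
  subst h
  rfl

theorem pointCongr_symm_pointCongr {W W' : Affine K} (h : W = W') (P : W.Point) :
    pointCongr h.symm (pointCongr h P) = P := by
  subst h
  rfl

theorem pointCongr_eq_zero_iff {W W' : Affine K} (h : W = W') (P : W.Point) :
    pointCongr h P = 0 ↔ P = 0 :=
  (pointCongr h).map_eq_zero_iff

/-- A point with the same `xRep`, described through its coordinates. -/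
theorem exists_some_of_pointCongr {W W' : Affine K} (h : W = W') (P : W.Point) :
    (P = 0 ∧ pointCongr h P = 0) ∨
      ∃ (x y : K) (hxy : W.Nonsingular x y), P = Point.some x y hxy ∧
        pointCongr h P = Point.some x y (nonsingular_congr h hxy) := by
  rcases P with _ | ⟨x, y, hxy⟩
  · exact Or.inl ⟨rfl, pointCongr_zero h⟩
  · exact Or.inr ⟨x, y, hxy, rfl, pointCongr_some h hxy⟩

end Generic

section Tower

variable {R : Type*} [CommRing R] (W₀ : WeierstrassCurve R) (A : Type*) [CommRing A] [Algebra R A]

/-- Base change in two steps is base change in one step. -/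
theorem baseChange_baseChange (L : Type*) [CommRing L] [Algebra R L] [Algebra A L]
    [IsScalarTower R A L] : (W₀.baseChange A).baseChange L = W₀.baseChange L := by
  change (W₀.map (algebraMap R A)).map (algebraMap A L) = W₀.map (algebraMap R L)
  rw [WeierstrassCurve.map_map, ← IsScalarTower.algebraMap_eq]

variable (L : Type*) [Field L] [DecidableEq L] [Algebra R L] [Algebra A L] [IsScalarTower R A L]

omit [DecidableEq L] in
/-- Equality of the two affine curves over `L`. -/
theorem toAffine_baseChange_baseChange :
    ((W₀.baseChange A).toAffine⁄L) = (W₀.toAffine⁄L) :=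
  baseChange_baseChange W₀ A L

/-- Points of the two-step base change are points of the one-step base change. -/
def towerCongr : ((W₀.baseChange A).toAffine⁄L).Point ≃+ (W₀.toAffine⁄L).Point :=
  pointCongr (toAffine_baseChange_baseChange W₀ A L)

theorem towerCongr_zero : towerCongr W₀ A L 0 = 0 := map_zero _

variable {L}

omit [DecidableEq L] in
theorem nonsingular_tower_iff {x y : L} :
    ((W₀.baseChange A).toAffine⁄L).Nonsingular x y ↔ (W₀.toAffine⁄L).Nonsingular x y := by
  rw [toAffine_baseChange_baseChange W₀ A L]

omit [DecidableEq L] in
theorem equation_tower_iff {x y : L} :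
    ((W₀.baseChange A).toAffine⁄L).Equation x y ↔ (W₀.toAffine⁄L).Equation x y := by
  rw [toAffine_baseChange_baseChange W₀ A L]

theorem towerCongr_some {x y : L} (hxy : ((W₀.baseChange A).toAffine⁄L).Nonsingular x y) :
    towerCongr W₀ A L (Point.some x y hxy)
      = Point.some x y ((nonsingular_tower_iff W₀ A).mp hxy) :=
  pointCongr_some _ hxy

theorem towerCongr_symm_some {x y : L} (hxy : (W₀.toAffine⁄L).Nonsingular x y) :
    (towerCongr W₀ A L).symm (Point.some x y hxy)
      = Point.some x y ((nonsingular_tower_iff W₀ A).mpr hxy) := by
  rw [AddEquiv.symm_apply_eq, towerCongr_some]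

theorem xRep_towerCongr (P : ((W₀.baseChange A).toAffine⁄L).Point) :
    (towerCongr W₀ A L P).xRep = P.xRep :=
  xRep_pointCongr _ P

theorem xRep_towerCongr_symm (P : (W₀.toAffine⁄L).Point) :
    ((towerCongr W₀ A L).symm P).xRep = P.xRep := by
  conv_rhs => rw [← (towerCongr W₀ A L).apply_symm_apply P, xRep_towerCongr]

/-- **Compatibility with `Point.map`**: an `A`-algebra homomorphism `f : L →ₐ[A] L'` acts on the
points of the two-step base change (curve over `A`) and, restricted to `R`, on the points of the
one-step base change (curve over `R`); `towerCongr` intertwines the two. -/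
theorem map_towerCongr {L' : Type*} [Field L'] [DecidableEq L'] [Algebra R L'] [Algebra A L']
    [IsScalarTower R A L'] (f : L →ₐ[A] L') (P : ((W₀.baseChange A).toAffine⁄L).Point) :
    towerCongr W₀ A L' (Point.map (W' := (W₀.baseChange A).toAffine) f P)
      = Point.map (W' := W₀.toAffine) (f.restrictScalars R) (towerCongr W₀ A L P) := by
  rcases P with _ | ⟨x, y, hxy⟩
  · show towerCongr W₀ A L' (Point.map (W' := (W₀.baseChange A).toAffine) f 0) = _
    rw [map_zero, map_zero]
    show (0 : (W₀.toAffine⁄L').Point)
      = Point.map (W' := W₀.toAffine) (f.restrictScalars R) (towerCongr W₀ A L 0)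
    rw [map_zero, map_zero]
  · rw [Point.map_some, towerCongr_some, towerCongr_some, Point.map_some]
    rfl

/-- The same with the `A`-algebra homomorphism used on both sides (`S := A` in `Point.map`). -/
theorem map_towerCongr' {L' : Type*} [Field L'] [DecidableEq L'] [Algebra R L'] [Algebra A L']
    [IsScalarTower R A L'] (f : L →ₐ[A] L') (P : ((W₀.baseChange A).toAffine⁄L).Point) :
    towerCongr W₀ A L' (Point.map (W' := (W₀.baseChange A).toAffine) f P)
      = Point.map (W' := W₀.toAffine) f (towerCongr W₀ A L P) := by
  rcases P with _ | ⟨x, y, hxy⟩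
  · show towerCongr W₀ A L' (Point.map (W' := (W₀.baseChange A).toAffine) f 0) = _
    rw [map_zero, map_zero]
    show (0 : (W₀.toAffine⁄L').Point)
      = Point.map (W' := W₀.toAffine) f (towerCongr W₀ A L 0)
    rw [map_zero, map_zero]
  · rw [Point.map_some, towerCongr_some, towerCongr_some, Point.map_some]

end Tower

end Fermat.Agent.EC.HW.PointCongr
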