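import Mathlib
import Fermat.Agent.EC.HW.PointCongr
import Fermat.Agent.EC.HWb.Const

/-!
# Program E (S58), block HW: the height laws of `EC/HWb` on the points of `W₀⁄K`

`EC/HWb` states the exact parallelogram law for a curve `W` over the (algebraically closed)
field `k` and the points of `(W.baseChange K).toAffine`. The Frobenius endomorphism lives on the
points of `W₀.toAffine⁄K` for `W₀` over the finite field. With `W := W₀.baseChange k` the two
groups are identified by `PointCongr.towerCongr`; this file transports `XRepBy`, `IsXRat`,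
`ptHeight` and restates `ptHeight_law`, `ptHeight_sub_zsmul`, `exists_y_const` on `W₀⁄K`.
-/

set_option autoImplicit false

namespace Fermat.Agent.EC.HW.PointCongr

open Polynomial WeierstrassCurve WeierstrassCurve.Affine
open Fermat.Agent.EC.HWb

section Generic

variable {k : Type*} [Field k] {K : Type*} [Field K] [DecidableEq K] [Algebra k[X] K]

theorem xRepBy_pointCongr {W W' : Affine K} (h : W = W') (P : W.Point) (p : Fin 2 → k[X]) :
    XRepBy (pointCongr h P) p ↔ XRepBy P p := by
  unfold XRepBy
  rw [xRep_pointCongr]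

theorem isXRat_pointCongr {W W' : Affine K} (h : W = W') (P : W.Point) :
    IsXRat (k := k) (pointCongr h P) ↔ IsXRat (k := k) P := by
  unfold IsXRat
  simp only [xRepBy_pointCongr]

theorem ptHeight_pointCongr {W W' : Affine K} (h : W = W') (P : W.Point) :
    ptHeight (k := k) (pointCongr h P) = ptHeight (k := k) P := by
  unfold ptHeight
  simp only [xRepBy_pointCongr]

end Generic

section Tower

variable {F₀ : Type*} [CommRing F₀] (W₀ : WeierstrassCurve F₀) {k : Type*} [Field k]
  [Algebra F₀ k] {K : Type*} [Field K] [DecidableEq K] [Algebra F₀ K] [Algebra k K]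
  [IsScalarTower F₀ k K] [Algebra k[X] K]

theorem xRepBy_towerCongr (P : ((W₀.baseChange k).toAffine⁄K).Point) (p : Fin 2 → k[X]) :
    XRepBy (towerCongr W₀ k K P) p ↔ XRepBy P p :=
  xRepBy_pointCongr _ P p

theorem isXRat_towerCongr (P : ((W₀.baseChange k).toAffine⁄K).Point) :
    IsXRat (k := k) (towerCongr W₀ k K P) ↔ IsXRat (k := k) P :=
  isXRat_pointCongr _ P

theorem ptHeight_towerCongr (P : ((W₀.baseChange k).toAffine⁄K).Point) :
    ptHeight (k := k) (towerCongr W₀ k K P) = ptHeight (k := k) P :=
  ptHeight_pointCongr _ P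

theorem isXRat_towerCongr_symm (P : (W₀.toAffine⁄K).Point) :
    IsXRat (k := k) ((towerCongr W₀ k K).symm P) ↔ IsXRat (k := k) P := by
  rw [← isXRat_towerCongr W₀, AddEquiv.apply_symm_apply]

theorem ptHeight_towerCongr_symm (P : (W₀.toAffine⁄K).Point) :
    ptHeight (k := k) ((towerCongr W₀ k K).symm P) = ptHeight (k := k) P := by
  rw [← ptHeight_towerCongr W₀, AddEquiv.apply_symm_apply]

variable [(W₀.baseChange k).IsElliptic] [IsScalarTower k k[X] K]

/-- **Exact parallelogram law** on the points of `W₀⁄K` (`W₀` over any base ring `F₀ → k`). -/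
theorem ptHeight_law_tower (hinj : Function.Injective (algebraMap k[X] K))
    (Q R : (W₀.toAffine⁄K).Point) (hQ : IsXRat (k := k) Q) (hR : IsXRat (k := k) R)
    (hadd : IsXRat (k := k) (Q + R)) (hsub : IsXRat (k := k) (Q - R)) :
    ptHeight (k := k) (Q + R) + ptHeight (k := k) (Q - R)
      = 2 * ptHeight (k := k) Q + 2 * ptHeight (k := k) R := by
  set e := towerCongr W₀ k K with he
  have h := ptHeight_law (W₀.baseChange k) hinj (e.symm Q) (e.symm R)
    ((isXRat_towerCongr_symm W₀ Q).mpr hQ) ((isXRat_towerCongr_symm W₀ R).mpr hR)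
    (by rw [← map_add]; exact (isXRat_towerCongr_symm W₀ _).mpr hadd)
    (by rw [← map_sub]; exact (isXRat_towerCongr_symm W₀ _).mpr hsub)
  rw [← map_add, ← map_sub] at h
  simpa only [he, ptHeight_towerCongr_symm] using h

/-- **Closed form** of the height along `n ↦ Q - n • R` on the points of `W₀⁄K`. -/
theorem ptHeight_sub_zsmul_tower (hinj : Function.Injective (algebraMap k[X] K))
    (Q R : (W₀.toAffine⁄K).Point) (hR : IsXRat (k := k) R)
    (hQ : ∀ n : ℤ, IsXRat (k := k) (Q - n • R)) (n : ℤ) :
    (ptHeight (k := k) (Q - n • R) : ℤ)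
      = (ptHeight (k := k) R : ℤ) * n ^ 2
        + ((ptHeight (k := k) (Q - R) : ℤ) - ptHeight (k := k) Q - ptHeight (k := k) R) * n
        + ptHeight (k := k) Q := by
  set e := towerCongr W₀ k K with he
  have key : ∀ m : ℤ, e.symm Q - m • e.symm R = e.symm (Q - m • R) := by
    intro m
    rw [map_sub, map_zsmul]
  have h := ptHeight_sub_zsmul (W₀.baseChange k) hinj (e.symm Q) (e.symm R)
    ((isXRat_towerCongr_symm W₀ R).mpr hR)
    (fun m => by rw [key]; exact (isXRat_towerCongr_symm W₀ _).mpr (hQ m)) n
  rw [key, ← map_sub] at h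
  simpa only [he, ptHeight_towerCongr_symm] using h

omit [DecidableEq K] [Algebra k[X] K] [(W₀.baseChange k).IsElliptic] [IsScalarTower k k[X] K] in
/-- Over an algebraically closed `k`, a point of `W₀⁄K` with x-coordinate in `k` has its
y-coordinate in `k`. -/
theorem exists_y_const_tower [IsAlgClosed k] (a : k) (y : K)
    (h : (W₀.toAffine⁄K).Equation (algebraMap k K a) y) : ∃ b : k, y = algebraMap k K b :=
  exists_y_const (W₀.baseChange k) a y ((equation_tower_iff W₀ k).mpr h)

omit [DecidableEq K] [(W₀.baseChange k).IsElliptic] in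
/-- A point of `W₀⁄K` of height zero is `0` or has both coordinates in `k`. -/
theorem eq_zero_or_const_of_ptHeight_eq_zero_tower [IsAlgClosed k]
    (hinj : Function.Injective (algebraMap k[X] K)) {Q : (W₀.toAffine⁄K).Point}
    (hQ : IsXRat (k := k) Q) (h0 : ptHeight (k := k) Q = 0) :
    Q = 0 ∨ ∃ (a b : k) (h : (W₀.toAffine⁄K).Nonsingular (algebraMap k K a) (algebraMap k K b)),
      Q = Affine.Point.some (algebraMap k K a) (algebraMap k K b) h := by
  rcases eq_zero_or_const_of_ptHeight_eq_zero hinj hQ h0 with h | ⟨a, y, h, hQ'⟩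
  · exact Or.inl h
  · obtain ⟨b, rfl⟩ := exists_y_const_tower W₀ a y h.1
    exact Or.inr ⟨a, b, h, hQ'⟩

end Tower

end Fermat.Agent.EC.HW.PointCongr
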