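import Fermat.Agent.EC.HW.ExportSkel

/-!
# Program E (S58), block HW → GOOD: the export (★) at `F = ZMod l` in the `apOfModel` vocabulary

`W` an integral Weierstrass model, `l` a prime of good reduction, `k` an algebraically closed field
of characteristic `l` with the `ZMod l`-algebra structure `ZMod.algebra k l` (e.g. the residue
field of a place of `ℚ̄` over `l`).

* `StarAtK W k n lam` : the statement (★) for the reduction `W.reductionMod l` over `k`:
  `(∃ Q ≠ 0, lam • Q = 0 ∧ π Q = n • Q) ↔ lam ∣ n² - a_l(W) n + l`;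
* `starAtK_of_star` : it follows from (★) in the literal shape of the binder map
  (`Fintype.card F`, `Nat.card W.toAffine.Point`) at `F := ZMod l`;
* `deltaMap_ne_zero`, `natCast_ne_zero_of_ne` : the side conditions `Δ ≠ 0` over `k`,
  `(lam : k) ≠ 0`;
* `starAtK_of_export` : it follows from the three hypotheses `hd`, `hfib`, `hdeg` of
  `ExportSkel.export_star`.
-/

set_option autoImplicit false
set_option linter.style.haveILetI false
set_option linter.unusedSectionVars false

open WeierstrassCurve WeierstrassCurve.Affine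
open scoped WeierstrassCurve.Affine

namespace Fermat.Agent.EC.HW.StarZMod

open Fermat.Agent.LR.RedFrob Fermat.Agent.EC.HW.ExportSkel

variable (W : WeierstrassCurve ℤ) {l : ℕ} [hl : Fact l.Prime]
  (k : Type*) [Field k] [CharP k l] [DecidableEq k]

/-- The statement (★) for the reduction of `W` modulo `l`, over `k`, in the `apOfModel`
vocabulary. -/
def StarAtK (n : ℤ) (lam : ℕ) : Prop :=
  letI := ZMod.algebra k l
  (∃ Q : ((W.reductionMod l).toAffine⁄k).Point, Q ≠ 0 ∧ lam • Q = 0 ∧
      frobPt (ZMod l) k (W.reductionMod l) Q = n • Q) ↔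
    (lam : ℤ) ∣ n ^ 2 - W.apOfModel l * n + l

omit [DecidableEq k] in
/-- The reduction of `W` at a good prime has `Δ ≠ 0` over `k`. -/
theorem deltaMap_ne_zero (hgood : W.IsGoodPrimeFor l) :
    letI := ZMod.algebra k l
    ((W.reductionMod l).map (algebraMap (ZMod l) k)).Δ ≠ 0 := by
  letI := ZMod.algebra k l
  rw [reductionMod_map_eq W k, WeierstrassCurve.map_Δ]
  intro h0
  apply hgood
  have h1 : ((W.Δ : ℤ) : k) = 0 := by simpa using h0
  exact (CharP.intCast_eq_zero_iff k l W.Δ).mp h1

omit [DecidableEq k] in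
/-- A prime `lam ≠ l` is invertible in `k`. -/
theorem natCast_ne_zero_of_ne {lam : ℕ} (hlam : lam.Prime) (hne : lam ≠ l) : (lam : k) ≠ 0 := by
  intro h0
  have hdvd : l ∣ lam := (CharP.cast_eq_zero_iff k l lam).mp h0
  rcases (Nat.dvd_prime hlam).mp hdvd with h | h
  · exact hl.out.one_lt.ne' h
  · exact hne h.symm

/-- (★) in the `apOfModel` vocabulary from (★) in the literal shape of the binder map at
`F := ZMod l`. -/
theorem starAtK_of_star (n : ℤ) (lam : ℕ)
    (hstar : letI := ZMod.algebra k l
      (∃ P : ((W.reductionMod l).toAffine⁄k).Point, P ≠ 0 ∧ lam • P = 0 ∧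
          frobPt (ZMod l) k (W.reductionMod l) P = n • P) ↔
        (lam : ℤ) ∣ n ^ 2 - ((Fintype.card (ZMod l) : ℤ) + 1 -
          Nat.card (W.reductionMod l).toAffine.Point) * n + Fintype.card (ZMod l)) :
    StarAtK W k n lam := by
  have hcard : (Fintype.card (ZMod l) : ℤ) = l := by rw [ZMod.card]
  rw [hcard] at hstar
  unfold StarAtK
  rw [apOfModel_eq W]
  exact hstar

/-- (★) in the `apOfModel` vocabulary from the three outputs `hd`, `hfib`, `hdeg` of the block HW
(the hypotheses of `ExportSkel.export_star`). -/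
theorem starAtK_of_export [IsAlgClosed k] (hgood : W.IsGoodPrimeFor l) (d : ℤ → ℕ) {a' : ℤ}
    (hfib : letI := ZMod.algebra k l
      ∀ n : ℤ, 0 < d n → ∃ m : ℕ,
        Nat.card (eigenSub (ZMod l) k (W.reductionMod l) n) * l ^ m = d n)
    (hdeg : letI := ZMod.algebra k l
      ∀ n : ℤ, d n = 0 → ∀ P : ((W.reductionMod l).toAffine⁄k).Point,
        frobPt (ZMod l) k (W.reductionMod l) P = n • P)
    (hd : ∀ n : ℤ, (d n : ℤ) = n ^ 2 - a' * n + l)
    (n : ℤ) {lam : ℕ} (hlam : lam.Prime) (hne : lam ≠ l) : StarAtK W k n lam := by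
  letI := ZMod.algebra k l
  have hcard : (Fintype.card (ZMod l) : ℤ) = l := by rw [ZMod.card]
  exact starAtK_of_star W k n lam
    (export_star (ZMod l) k (W.reductionMod l) d hfib hdeg (deltaMap_ne_zero W k hgood) hl.out
      (a' := a') (by intro n; rw [hcard]; exact hd n) n hlam hne
      (natCast_ne_zero_of_ne k hlam hne))

end Fermat.Agent.EC.HW.StarZMod
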